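import Mathlib

/-!
# Program DS (S48, Deligne–Serre), package (I): subgroups of `GL₂(𝔽_ℓ)` and DS Prop. 7.2
## Definitions (helper27)

Everything is elementary: a subgroup `G ≤ GL (Fin 2) F`, acting on column vectors by `mulVec`.
* `DsiStable K G v`   : `v ∈ K²` (`K` an extension of `F`) is a common eigenvector of `G`;
* `DsiSemisimple G`   : every `G`-stable line of `F²` has a `G`-stable complement;
* `DsiSplitOver K G`  : `G` is simultaneously diagonalisable over `K` (“`G` lies in a Cartan subgroup”);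
* `dsiScalars G`      : the subgroup of scalar matrices of `G`.
-/

set_option autoImplicit false

namespace Fermat.Agent.DS

open Matrix

/-- the matrix of `g ∈ GL₂(F)` with entries pushed to an extension `K` of `F` -/
noncomputable def dsiMat {F : Type*} [Field F] (K : Type*) [Field K] [Algebra F K]
    (g : GL (Fin 2) F) : Matrix (Fin 2) (Fin 2) K :=
  (g : Matrix (Fin 2) (Fin 2) F).map (algebraMap F K)

/-- `v ∈ K²` is a common eigenvector of all elements of `G` -/
def DsiStable {F : Type*} [Field F] (K : Type*) [Field K] [Algebra F K]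
    (G : Subgroup (GL (Fin 2) F)) (v : Fin 2 → K) : Prop :=
  ∀ g ∈ G, ∃ a : K, (dsiMat K g).mulVec v = a • v

/-- elementary semisimplicity of `G ≤ GL₂(F)` on `F²` : every stable line has a stable complement -/
def DsiSemisimple {F : Type*} [Field F] (G : Subgroup (GL (Fin 2) F)) : Prop :=
  ∀ v : Fin 2 → F, v ≠ 0 → DsiStable F G v →
    ∃ w : Fin 2 → F, (∀ c : F, w ≠ c • v) ∧ DsiStable F G w

/-- `G` is simultaneously diagonalisable over the extension `K` -/
def DsiSplitOver {F : Type*} [Field F] (K : Type*) [Field K] [Algebra F K]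
    (G : Subgroup (GL (Fin 2) F)) : Prop :=
  ∃ v w : Fin 2 → K, v ≠ 0 ∧ (∀ c : K, w ≠ c • v) ∧ DsiStable K G v ∧ DsiStable K G w

/-- the scalar matrices in `G` -/
def dsiScalars {F : Type*} [Field F] (G : Subgroup (GL (Fin 2) F)) : Subgroup (GL (Fin 2) F) :=
  G ⊓ Subgroup.center (GL (Fin 2) F)

/-- DS 7.1, property `C(η, M)` in (trace, det) form: a subset `H ⊆ G` of proportion `≥ 1 - η`
on which `(tr, det)` takes at most `M` values -/
def DsiHasC {F : Type*} [Field F] [DecidableEq F] (G : Subgroup (GL (Fin 2) F)) (η : ℝ) (M : ℕ) :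
    Prop :=
  ∃ H : Finset (GL (Fin 2) F), (∀ h ∈ H, h ∈ G) ∧
    (1 - η) * (Nat.card G : ℝ) ≤ (H.card : ℝ) ∧
    (H.image (fun h : GL (Fin 2) F => ((h : Matrix (Fin 2) (Fin 2) F).trace,
      (h : Matrix (Fin 2) (Fin 2) F).det))).card ≤ M

end Fermat.Agent.DS
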