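import Mathlib
import Fermat.Agent.DS.I.Defs

/-!
# Program DS, package (I), row I-A1 : `dsi_sl2_gen`

Two opposite elementary unipotents over the PRIME field `ZMod l` generate every matrix of
determinant one.  (helper25; private prefix `dsia_`.)
-/

set_option autoImplicit false

namespace Fermat.Agent.DS

open Matrix

/-- the upper elementary unipotent `[[1,x],[0,1]]` as an element of `GL₂(F)` -/
noncomputable def dsiaUp {F : Type*} [Field F] (x : F) : GL (Fin 2) F :=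
  Matrix.GeneralLinearGroup.mkOfDetNeZero !![1, x; 0, 1] (by
    rw [Matrix.det_fin_two_of]; simp)

/-- the lower elementary unipotent `[[1,0],[y,1]]` as an element of `GL₂(F)` -/
noncomputable def dsiaLo {F : Type*} [Field F] (y : F) : GL (Fin 2) F :=
  Matrix.GeneralLinearGroup.mkOfDetNeZero !![1, 0; y, 1] (by
    rw [Matrix.det_fin_two_of]; simp)

theorem dsiaUp_coe {F : Type*} [Field F] (x : F) :
    ((dsiaUp x : GL (Fin 2) F) : Matrix (Fin 2) (Fin 2) F) = !![1, x; 0, 1] := rfl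

theorem dsiaLo_coe {F : Type*} [Field F] (y : F) :
    ((dsiaLo y : GL (Fin 2) F) : Matrix (Fin 2) (Fin 2) F) = !![1, 0; y, 1] := rfl

theorem dsiaUp_mul {F : Type*} [Field F] (x y : F) :
    dsiaUp x * dsiaUp y = dsiaUp (x + y) := by
  apply Units.ext
  rw [Matrix.GeneralLinearGroup.coe_mul, dsiaUp_coe, dsiaUp_coe, dsiaUp_coe]
  ext i j
  fin_cases i <;> fin_cases j <;> simp [Matrix.mul_apply, Fin.sum_univ_two, add_comm]

theorem dsiaLo_mul {F : Type*} [Field F] (x y : F) :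
    dsiaLo x * dsiaLo y = dsiaLo (x + y) := by
  apply Units.ext
  rw [Matrix.GeneralLinearGroup.coe_mul, dsiaLo_coe, dsiaLo_coe, dsiaLo_coe]
  ext i j
  fin_cases i <;> fin_cases j <;> simp [Matrix.mul_apply, Fin.sum_univ_two, add_comm]

theorem dsiaUp_zero {F : Type*} [Field F] : dsiaUp (0 : F) = 1 := by
  apply Units.ext
  rw [dsiaUp_coe]
  ext i j
  fin_cases i <;> fin_cases j <;> simp

theorem dsiaLo_zero {F : Type*} [Field F] : dsiaLo (0 : F) = 1 := by
  apply Units.ext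
  rw [dsiaLo_coe]
  ext i j
  fin_cases i <;> fin_cases j <;> simp

theorem dsiaUp_pow {F : Type*} [Field F] (x : F) (n : ℕ) :
    dsiaUp x ^ n = dsiaUp ((n : F) * x) := by
  induction n with
  | zero => rw [pow_zero, Nat.cast_zero, zero_mul, dsiaUp_zero]
  | succ n ih =>
    rw [pow_succ, ih, dsiaUp_mul]
    congr 1
    push_cast
    ring

theorem dsiaLo_pow {F : Type*} [Field F] (x : F) (n : ℕ) :
    dsiaLo x ^ n = dsiaLo ((n : F) * x) := by
  induction n with
  | zero => rw [pow_zero, Nat.cast_zero, zero_mul, dsiaLo_zero]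
  | succ n ih =>
    rw [pow_succ, ih, dsiaLo_mul]
    congr 1
    push_cast
    ring

/-- over the prime field every element is a natural multiple of a given nonzero element -/
theorem dsia_exists_nat_mul (l : ℕ) [Fact l.Prime] (a x : ZMod l) (ha : a ≠ 0) :
    ∃ n : ℕ, (n : ZMod l) * a = x := by
  refine ⟨(x / a).val, ?_⟩
  rw [ZMod.natCast_zmod_val, div_mul_cancel₀ x ha]

theorem dsia_up_mem (l : ℕ) [Fact l.Prime] (G : Subgroup (GL (Fin 2) (ZMod l)))
    (a : ZMod l) (ha : a ≠ 0)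
    (hu : ∃ u ∈ G, (u : Matrix (Fin 2) (Fin 2) (ZMod l)) = !![1, a; 0, 1]) (x : ZMod l) :
    dsiaUp x ∈ G := by
  obtain ⟨u, huG, hu⟩ := hu
  have hua : u = dsiaUp a := Units.ext (by rw [hu, dsiaUp_coe])
  obtain ⟨n, hn⟩ := dsia_exists_nat_mul l a x ha
  rw [← hn, ← dsiaUp_pow, ← hua]
  exact G.pow_mem huG n

theorem dsia_lo_mem (l : ℕ) [Fact l.Prime] (G : Subgroup (GL (Fin 2) (ZMod l)))
    (b : ZMod l) (hb : b ≠ 0)
    (hu : ∃ u ∈ G, (u : Matrix (Fin 2) (Fin 2) (ZMod l)) = !![1, 0; b, 1]) (x : ZMod l) :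
    dsiaLo x ∈ G := by
  obtain ⟨u, huG, hu⟩ := hu
  have hua : u = dsiaLo b := Units.ext (by rw [hu, dsiaLo_coe])
  obtain ⟨n, hn⟩ := dsia_exists_nat_mul l b x hb
  rw [← hn, ← dsiaLo_pow, ← hua]
  exact G.pow_mem huG n

/-- Bruhat-type factorisation of a determinant-one matrix with nonzero lower-left entry. -/
theorem dsia_factor {F : Type*} [Field F] (g : GL (Fin 2) F)
    (hdet : (g : Matrix (Fin 2) (Fin 2) F).det = 1)
    (hr : (g : Matrix (Fin 2) (Fin 2) F) 1 0 ≠ 0) :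
    g = dsiaUp (((g : Matrix (Fin 2) (Fin 2) F) 0 0 - 1) / (g : Matrix (Fin 2) (Fin 2) F) 1 0) *
        dsiaLo ((g : Matrix (Fin 2) (Fin 2) F) 1 0) *
        dsiaUp (((g : Matrix (Fin 2) (Fin 2) F) 1 1 - 1) / (g : Matrix (Fin 2) (Fin 2) F) 1 0) := by
  set M : Matrix (Fin 2) (Fin 2) F := (g : Matrix (Fin 2) (Fin 2) F) with hM
  have hd : M 0 0 * M 1 1 - M 0 1 * M 1 0 = 1 := by
    rw [← Matrix.det_fin_two]; exact hdet
  apply Units.ext
  rw [Matrix.GeneralLinearGroup.coe_mul, Matrix.GeneralLinearGroup.coe_mul, dsiaUp_coe, dsiaLo_coe,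
    dsiaUp_coe, ← hM]
  ext i j
  fin_cases i <;> fin_cases j
  · simp [Matrix.mul_apply, Fin.sum_univ_two]
    field_simp
    ring
  · simp [Matrix.mul_apply, Fin.sum_univ_two]
    field_simp
    linear_combination (-1 : F) * hd
  · simp [Matrix.mul_apply, Fin.sum_univ_two]
  · simp [Matrix.mul_apply, Fin.sum_univ_two]
    field_simp
    ring

/-- (I-A1) two opposite elementary unipotents over the PRIME field generate everything of
determinant one. -/
theorem dsi_sl2_gen (l : ℕ) [Fact l.Prime] (G : Subgroup (GL (Fin 2) (ZMod l)))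
    (a b : ZMod l) (ha : a ≠ 0) (hb : b ≠ 0)
    (hu : ∃ u ∈ G, (u : Matrix (Fin 2) (Fin 2) (ZMod l)) = !![1, a; 0, 1])
    (hu' : ∃ u ∈ G, (u : Matrix (Fin 2) (Fin 2) (ZMod l)) = !![1, 0; b, 1]) :
    ∀ g : GL (Fin 2) (ZMod l), (g : Matrix (Fin 2) (Fin 2) (ZMod l)).det = 1 → g ∈ G := by
  have hup := dsia_up_mem l G a ha hu
  have hlo := dsia_lo_mem l G b hb hu'
  -- the case of a nonzero lower-left entry
  have key : ∀ g : GL (Fin 2) (ZMod l), (g : Matrix (Fin 2) (Fin 2) (ZMod l)).det = 1 →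
      (g : Matrix (Fin 2) (Fin 2) (ZMod l)) 1 0 ≠ 0 → g ∈ G := by
    intro g hdet hr
    rw [dsia_factor g hdet hr]
    exact G.mul_mem (G.mul_mem (hup _) (hlo _)) (hup _)
  intro g hdet
  by_cases hr : (g : Matrix (Fin 2) (Fin 2) (ZMod l)) 1 0 = 0
  · -- multiply by `[[1,0],[1,1]]` on the left
    have hd : (g : Matrix (Fin 2) (Fin 2) (ZMod l)) 0 0 * (g : Matrix (Fin 2) (Fin 2) (ZMod l)) 1 1
        - (g : Matrix (Fin 2) (Fin 2) (ZMod l)) 0 1 * (g : Matrix (Fin 2) (Fin 2) (ZMod l)) 1 0 = 1 := by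
      rw [← Matrix.det_fin_two]; exact hdet
    have hp : (g : Matrix (Fin 2) (Fin 2) (ZMod l)) 0 0 ≠ 0 := by
      intro h0
      rw [h0, hr] at hd
      simp at hd
    have h1 : dsiaLo (1 : ZMod l) * g ∈ G := by
      apply key
      · rw [Matrix.GeneralLinearGroup.coe_mul, Matrix.det_mul, hdet, dsiaLo_coe,
          Matrix.det_fin_two_of]
        simp
      · rw [Matrix.GeneralLinearGroup.coe_mul, dsiaLo_coe]
        simp [Matrix.mul_apply, Fin.sum_univ_two, hr, hp]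
    have h2 : g = (dsiaLo (1 : ZMod l))⁻¹ * (dsiaLo (1 : ZMod l) * g) := by
      rw [inv_mul_cancel_left]
    rw [h2]
    exact G.mul_mem (G.inv_mem (hlo 1)) h1
  · exact key g hdet hr

end Fermat.Agent.DS
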