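import Mathlib
import Fermat.Agent.DS.I.Defs

/-!
# Program DS, package (I), row I-A2 : `dsi_order_l`

An element of order `ℓ` of `GL₂(𝔽_ℓ)` is a transvection `1 + N`, `N ≠ 0`, `N² = 0`.
(helper25; private prefix `dsia_`.)
-/

set_option autoImplicit false

namespace Fermat.Agent.DS

open Matrix

/-- Cayley–Hamilton for `2 × 2` matrices, explicit form. -/
theorem dsia_cayley_hamilton {R : Type*} [CommRing R] (N : Matrix (Fin 2) (Fin 2) R) :
    N * N = N.trace • N - N.det • (1 : Matrix (Fin 2) (Fin 2) R) := by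
  ext i j
  fin_cases i <;> fin_cases j <;>
    simp [Matrix.mul_apply, Fin.sum_univ_two, Matrix.trace_fin_two, Matrix.det_fin_two] <;> ring

/-- if `N² = t N` then `N^(k+1) = t^k N`. -/
theorem dsia_pow_succ_of_sq {R : Type*} [CommRing R] (N : Matrix (Fin 2) (Fin 2) R) (t : R)
    (h : N * N = t • N) (k : ℕ) : N ^ (k + 1) = t ^ k • N := by
  induction k with
  | zero => simp
  | succ k ih =>
    rw [pow_succ, ih, Matrix.smul_mul, h, smul_smul, pow_succ]

/-- a nilpotent `2 × 2` matrix over a field squares to zero. -/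
theorem dsia_sq_eq_zero_of_pow {F : Type*} [Field F] (N : Matrix (Fin 2) (Fin 2) F) (n : ℕ)
    (hn : N ^ n = 0) : N * N = 0 := by
  by_cases hN : N = 0
  · rw [hN, mul_zero]
  have hn0 : n ≠ 0 := by
    rintro rfl
    rw [pow_zero] at hn
    exact one_ne_zero hn
  have hdet : N.det = 0 := by
    have h1 : N.det ^ n = 0 := by rw [← Matrix.det_pow, hn, Matrix.det_zero]
    exact pow_eq_zero_iff hn0 |>.mp h1
  have hsq : N * N = N.trace • N := by
    rw [dsia_cayley_hamilton, hdet, zero_smul, sub_zero]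
  obtain ⟨k, rfl⟩ : ∃ k, n = k + 1 := Nat.exists_eq_succ_of_ne_zero hn0
  rw [dsia_pow_succ_of_sq N _ hsq k] at hn
  have htk : N.trace ^ k = 0 := by
    by_contra htk
    apply hN
    have := congrArg (fun X => (N.trace ^ k)⁻¹ • X) hn
    simpa [smul_smul, inv_mul_cancel₀ htk] using this
  by_cases hk : k = 0
  · subst hk
    rw [pow_zero] at htk
    exact absurd htk one_ne_zero
  have ht : N.trace = 0 := pow_eq_zero_iff hk |>.mp htk
  rw [hsq, ht, zero_smul]

/-- (I-A2) an element of order `ℓ` of `GL₂(𝔽_ℓ)` is a transvection: `u = 1 + N`, `N ≠ 0`, `N² = 0`. -/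
theorem dsi_order_l (l : ℕ) [Fact l.Prime] (u : GL (Fin 2) (ZMod l)) (hu : u ≠ 1)
    (hul : u ^ l = 1) :
    ∃ N : Matrix (Fin 2) (Fin 2) (ZMod l), N ≠ 0 ∧ N * N = 0 ∧
      (u : Matrix (Fin 2) (Fin 2) (ZMod l)) = 1 + N := by
  set M : Matrix (Fin 2) (Fin 2) (ZMod l) := (u : Matrix (Fin 2) (Fin 2) (ZMod l)) with hM
  refine ⟨M - 1, ?_, ?_, by rw [add_sub_cancel]⟩
  · intro h
    apply hu
    apply Units.ext
    rw [Units.val_one, ← hM]
    exact sub_eq_zero.mp h
  · have hMl : M ^ l = 1 := by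
      have := congrArg (fun x : GL (Fin 2) (ZMod l) => (x : Matrix (Fin 2) (Fin 2) (ZMod l))) hul
      simpa using this
    have hpow : (M - 1) ^ l = 0 := by
      rw [sub_pow_char_of_commute l (Commute.one_right M), hMl, one_pow, sub_self]
    exact dsia_sq_eq_zero_of_pow (M - 1) l hpow

end Fermat.Agent.DS
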