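import Mathlib
import Fermat.Agent.DS.I.Defs
import Fermat.Agent.DS.I.SL2Gen
import Fermat.Agent.DS.I.OrderL

/-!
# Program DS, package (I), row I-A3 : `dsi_exists_transvections`

A semisimple subgroup of `GL₂(𝔽_ℓ)` of order divisible by `ℓ` contains, in a suitable basis, two
opposite elementary unipotents.  (helper25; private prefix `dsia_`.)
-/

set_option autoImplicit false

namespace Fermat.Agent.DS

open Matrix

/-- `dsiMat F g` is just the matrix of `g`. -/
theorem dsia_dsiMat_self {F : Type*} [Field F] (g : GL (Fin 2) F) :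
    dsiMat F g = (g : Matrix (Fin 2) (Fin 2) F) := by
  ext i j
  simp [dsiMat]

/-- two vectors of `F²`, the first nonzero and the second not a multiple of the first, have
nonzero determinant. -/
theorem dsia_det_ne_zero {F : Type*} [Field F] (v z : Fin 2 → F) (hv : v ≠ 0)
    (hz : ∀ c : F, z ≠ c • v) : v 0 * z 1 - z 0 * v 1 ≠ 0 := by
  intro h
  have h' : v 0 * z 1 = z 0 * v 1 := sub_eq_zero.mp h
  by_cases h0 : v 0 = 0
  · have h1 : v 1 ≠ 0 := by
      intro h1
      apply hv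
      funext i
      fin_cases i
      · exact h0
      · exact h1
    have hz0 : z 0 = 0 := by
      rw [h0, zero_mul] at h'
      rcases mul_eq_zero.mp h'.symm with h2 | h2
      · exact h2
      · exact absurd h2 h1
    apply hz (z 1 / v 1)
    funext i
    fin_cases i
    · simp [hz0, h0]
    · simp [div_mul_cancel₀ _ h1]
  · apply hz (z 0 / v 0)
    funext i
    fin_cases i
    · simp [div_mul_cancel₀ _ h0]
    · simp only [Fin.mk_one, Fin.isValue, Pi.smul_apply, smul_eq_mul]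
      rw [div_mul_eq_mul_div, ← h', mul_div_cancel_left₀ _ h0]

/-- a `2 × 2` matrix killing two independent vectors is zero. -/
theorem dsia_eq_zero_of_mulVec {F : Type*} [Field F] (N : Matrix (Fin 2) (Fin 2) F)
    (v z : Fin 2 → F) (hv : v ≠ 0) (hz : ∀ c : F, z ≠ c • v) (hNv : N *ᵥ v = 0)
    (hNz : N *ᵥ z = 0) : N = 0 := by
  have hd := dsia_det_ne_zero v z hv hz
  ext i j
  have h1 : N i 0 * v 0 + N i 1 * v 1 = 0 := by
    have := congrFun hNv i
    simpa [Matrix.mulVec, dotProduct, Fin.sum_univ_two] using this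
  have h2 : N i 0 * z 0 + N i 1 * z 1 = 0 := by
    have := congrFun hNz i
    simpa [Matrix.mulVec, dotProduct, Fin.sum_univ_two] using this
  have e0 : N i 0 * (v 0 * z 1 - z 0 * v 1) = 0 := by linear_combination z 1 * h1 - v 1 * h2
  have e1 : N i 1 * (v 0 * z 1 - z 0 * v 1) = 0 := by linear_combination v 0 * h2 - z 0 * h1
  fin_cases j
  · exact (mul_eq_zero.mp e0).resolve_right hd
  · exact (mul_eq_zero.mp e1).resolve_right hd

/-- the matrix with columns `v`, `x` -/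
def dsiaCols {F : Type*} [Field F] (v x : Fin 2 → F) : Matrix (Fin 2) (Fin 2) F :=
  !![v 0, x 0; v 1, x 1]

theorem dsiaCols_det {F : Type*} [Field F] (v x : Fin 2 → F) :
    (dsiaCols v x).det = v 0 * x 1 - x 0 * v 1 := by
  rw [dsiaCols, Matrix.det_fin_two_of]

/-- `M * (v | x) = (M v | M x)`. -/
theorem dsia_mul_cols {F : Type*} [Field F] (M : Matrix (Fin 2) (Fin 2) F) (v x : Fin 2 → F) :
    M * dsiaCols v x = dsiaCols (M *ᵥ v) (M *ᵥ x) := by
  ext i j
  fin_cases i <;> fin_cases j <;>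
    simp [dsiaCols, Matrix.mul_apply, Matrix.mulVec, dotProduct, Fin.sum_univ_two]

/-- conjugation bookkeeping: if `u * P = P * E` then `P⁻¹ * u * P = E`. -/
theorem dsia_conj_eq {F : Type*} [Field F] (u P E : GL (Fin 2) F)
    (h : (u : Matrix (Fin 2) (Fin 2) F) * (P : Matrix (Fin 2) (Fin 2) F) =
      (P : Matrix (Fin 2) (Fin 2) F) * (E : Matrix (Fin 2) (Fin 2) F)) :
    P⁻¹ * u * P = E := by
  have h' : u * P = P * E := Units.ext (by
    rw [Matrix.GeneralLinearGroup.coe_mul, Matrix.GeneralLinearGroup.coe_mul, h])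
  rw [mul_assoc, h', inv_mul_cancel_left]

/-- (I-A3) semisimple + order divisible by `ℓ` ⟹ in a suitable basis `G` contains two opposite
elementary unipotents. -/
theorem dsi_exists_transvections (l : ℕ) [Fact l.Prime] (G : Subgroup (GL (Fin 2) (ZMod l)))
    (hG : DsiSemisimple G) (hl : l ∣ Nat.card G) :
    ∃ (P : GL (Fin 2) (ZMod l)) (a b : ZMod l), a ≠ 0 ∧ b ≠ 0 ∧
      (∃ u ∈ G, ((P⁻¹ * u * P : GL (Fin 2) (ZMod l)) : Matrix (Fin 2) (Fin 2) (ZMod l))
          = !![1, a; 0, 1]) ∧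
      (∃ u ∈ G, ((P⁻¹ * u * P : GL (Fin 2) (ZMod l)) : Matrix (Fin 2) (Fin 2) (ZMod l))
          = !![1, 0; b, 1]) := by
  classical
  -- an element of order `l`
  obtain ⟨u₀, hu₀⟩ := exists_prime_orderOf_dvd_card' (G := G) l hl
  set u : GL (Fin 2) (ZMod l) := (u₀ : GL (Fin 2) (ZMod l)) with hu_def
  have huG : u ∈ G := u₀.2
  have hu1 : u ≠ 1 := by
    intro h
    have h1 : u₀ = 1 := Subtype.ext h
    rw [h1, orderOf_one] at hu₀
    exact (Fact.out : l.Prime).one_lt.ne hu₀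
  have hul : u ^ l = 1 := by
    have h1 : u₀ ^ l = 1 := by
      have h0 := pow_orderOf_eq_one u₀
      rwa [hu₀] at h0
    have := congrArg (fun x : G => (x : GL (Fin 2) (ZMod l))) h1
    simpa using this
  obtain ⟨N, hN0, hNN, huN⟩ := dsi_order_l l u hu1 hul
  -- a nonzero vector `v` in the image (and kernel) of `N`
  have hw₀ : ∃ w₀ : Fin 2 → ZMod l, N *ᵥ w₀ ≠ 0 := by
    by_contra hcon
    push Not at hcon
    apply hN0
    ext i j
    have := congrFun (hcon (Pi.single j 1)) i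
    simpa using this
  obtain ⟨w₀, hw₀⟩ := hw₀
  set v : Fin 2 → ZMod l := N *ᵥ w₀ with hv_def
  have hv0 : v ≠ 0 := hw₀
  have hNv : N *ᵥ v = 0 := by
    rw [hv_def, Matrix.mulVec_mulVec, hNN, Matrix.zero_mulVec]
  -- the image of `N` lies in the line spanned by `v`
  have him : ∀ y : Fin 2 → ZMod l, ∃ c : ZMod l, N *ᵥ y = c • v := by
    intro y
    by_contra hcon
    push Not at hcon
    apply hN0
    refine dsia_eq_zero_of_mulVec N v (N *ᵥ y) hv0 hcon hNv ?_
    rw [Matrix.mulVec_mulVec, hNN, Matrix.zero_mulVec]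
  -- the kernel of `N` is the line spanned by `v`
  have hker : ∀ y : Fin 2 → ZMod l, N *ᵥ y = 0 → ∃ c : ZMod l, y = c • v := by
    intro y hy
    by_contra hcon
    push Not at hcon
    exact hN0 (dsia_eq_zero_of_mulVec N v y hv0 hcon hNv hy)
  -- `v` is not `G`-stable
  have hnst : ¬ DsiStable (ZMod l) G v := by
    intro hst
    obtain ⟨w, hwv, hwst⟩ := hG v hv0 hst
    obtain ⟨b, hb⟩ := hwst u huG
    rw [dsia_dsiMat_self, huN, Matrix.add_mulVec, Matrix.one_mulVec] at hb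
    have hNw : N *ᵥ w = (b - 1) • w := by
      rw [sub_smul, one_smul, ← hb, add_sub_cancel_left]
    have hw0 : w ≠ 0 := by
      intro h
      apply hwv 0
      rw [h, zero_smul]
    have hb1 : (b - 1) * (b - 1) = 0 := by
      have h2 : N *ᵥ (N *ᵥ w) = 0 := by
        rw [Matrix.mulVec_mulVec, hNN, Matrix.zero_mulVec]
      rw [hNw, Matrix.mulVec_smul, hNw, smul_smul] at h2
      rcases smul_eq_zero.mp h2 with h | h
      · exact h
      · exact absurd h hw0
    have hb0 : b - 1 = 0 := by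
      rcases mul_eq_zero.mp hb1 with h | h <;> exact h
    rw [hb0, zero_smul] at hNw
    exact hN0 (dsia_eq_zero_of_mulVec N v w hv0 hwv hNv hNw)
  -- an element `g ∈ G` moving the line of `v`
  have hg : ∃ g ∈ G, ∀ c : ZMod l, (g : Matrix (Fin 2) (Fin 2) (ZMod l)) *ᵥ v ≠ c • v := by
    by_contra hcon
    push Not at hcon
    apply hnst
    intro g hgG
    obtain ⟨c, hc⟩ := hcon g hgG
    exact ⟨c, by rw [dsia_dsiMat_self]; exact hc⟩
  obtain ⟨g, hgG, hgv⟩ := hg
  set x : Fin 2 → ZMod l := (g : Matrix (Fin 2) (Fin 2) (ZMod l)) *ᵥ v with hx_def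
  -- the base change matrix
  have hPdet : (dsiaCols v x).det ≠ 0 := by
    rw [dsiaCols_det]
    exact dsia_det_ne_zero v x hv0 hgv
  set P : GL (Fin 2) (ZMod l) := Matrix.GeneralLinearGroup.mkOfDetNeZero (dsiaCols v x) hPdet
    with hP_def
  have hPcoe : (P : Matrix (Fin 2) (Fin 2) (ZMod l)) = dsiaCols v x := rfl
  -- `N x = a v` with `a ≠ 0`
  obtain ⟨a, ha⟩ := him x
  have ha0 : a ≠ 0 := by
    intro h
    rw [h, zero_smul] at ha
    obtain ⟨c, hc⟩ := hker x ha
    exact hgv c hc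
  -- `N (g⁻¹ v) = b v` with `b ≠ 0`
  set y : Fin 2 → ZMod l := ((g⁻¹ : GL (Fin 2) (ZMod l)) : Matrix (Fin 2) (Fin 2) (ZMod l)) *ᵥ v
    with hy_def
  have hgy : (g : Matrix (Fin 2) (Fin 2) (ZMod l)) *ᵥ y = v := by
    rw [hy_def, Matrix.mulVec_mulVec, ← Matrix.GeneralLinearGroup.coe_mul, mul_inv_cancel,
      Units.val_one, Matrix.one_mulVec]
  obtain ⟨b, hb⟩ := him y
  have hb0 : b ≠ 0 := by
    intro h
    rw [h, zero_smul] at hb
    obtain ⟨c, hc⟩ := hker y hb
    -- `v = g y = c • g v`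
    have h1 : v = c • x := by
      rw [← hgy, hc, Matrix.mulVec_smul]
    have hc0 : c ≠ 0 := by
      intro h0
      rw [h0, zero_smul] at h1
      exact hv0 h1
    apply hgv c⁻¹
    rw [h1, smul_smul, inv_mul_cancel₀ hc0, one_smul]
  refine ⟨P, a, b, ha0, hb0, ⟨u, huG, ?_⟩, ⟨g * u * g⁻¹, ?_, ?_⟩⟩
  · -- `P⁻¹ u P = [[1,a],[0,1]]`
    rw [dsia_conj_eq u P (dsiaUp a), dsiaUp_coe]
    rw [hPcoe, dsiaUp_coe, dsia_mul_cols, huN, Matrix.add_mulVec, Matrix.add_mulVec,
      Matrix.one_mulVec, Matrix.one_mulVec, hNv, ha, add_zero]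
    ext i j
    fin_cases i <;> fin_cases j <;>
      simp [dsiaCols, Matrix.mul_apply, Fin.sum_univ_two] <;> ring
  · exact G.mul_mem (G.mul_mem hgG huG) (G.inv_mem hgG)
  · -- `P⁻¹ (g u g⁻¹) P = [[1,0],[b,1]]`
    rw [dsia_conj_eq (g * u * g⁻¹) P (dsiaLo b), dsiaLo_coe]
    have hmat : ((g * u * g⁻¹ : GL (Fin 2) (ZMod l)) : Matrix (Fin 2) (Fin 2) (ZMod l)) =
        (g : Matrix (Fin 2) (Fin 2) (ZMod l)) * (1 + N) *
          ((g⁻¹ : GL (Fin 2) (ZMod l)) : Matrix (Fin 2) (Fin 2) (ZMod l)) := by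
      rw [Matrix.GeneralLinearGroup.coe_mul, Matrix.GeneralLinearGroup.coe_mul, huN]
    -- action on `v` and on `x`
    have h1 : ((g * u * g⁻¹ : GL (Fin 2) (ZMod l)) : Matrix (Fin 2) (Fin 2) (ZMod l)) *ᵥ v
        = v + b • x := by
      rw [hmat, ← Matrix.mulVec_mulVec, ← Matrix.mulVec_mulVec, ← hy_def, Matrix.add_mulVec,
        Matrix.one_mulVec, hb, Matrix.mulVec_add, hgy, Matrix.mulVec_smul]
    have h2 : ((g * u * g⁻¹ : GL (Fin 2) (ZMod l)) : Matrix (Fin 2) (Fin 2) (ZMod l)) *ᵥ x = x := by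
      have hgx : ((g⁻¹ : GL (Fin 2) (ZMod l)) : Matrix (Fin 2) (Fin 2) (ZMod l)) *ᵥ x = v := by
        rw [hx_def, Matrix.mulVec_mulVec, ← Matrix.GeneralLinearGroup.coe_mul, inv_mul_cancel,
          Units.val_one, Matrix.one_mulVec]
      rw [hmat, ← Matrix.mulVec_mulVec, ← Matrix.mulVec_mulVec, hgx, Matrix.add_mulVec,
        Matrix.one_mulVec, hNv, add_zero]
    rw [hPcoe, dsiaLo_coe, dsia_mul_cols, h1, h2]
    ext i j
    fin_cases i <;> fin_cases j <;>
      simp [dsiaCols, Matrix.mul_apply, Fin.sum_univ_two] <;> ring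

end Fermat.Agent.DS
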