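import Mathlib
import Fermat.Agent.DS.I.Defs
import Fermat.Agent.DS.I.SL2Gen
import Fermat.Agent.DS.I.Transv

/-!
# Program DS, package (I), rows I-A4, I-A5 : `dsi_contains_sl2`, `dsi_card_ge_of_sl2`

A semisimple subgroup of `GL₂(𝔽_ℓ)` of order divisible by `ℓ` contains `SL₂(𝔽_ℓ)`, hence has at
least `ℓ(ℓ² - 1)` elements.  (helper25; private prefix `dsia_`.)
-/

set_option autoImplicit false

namespace Fermat.Agent.DS

open Matrix

/-- (I-A4) = A1 + A3 (conjugate back; `det` is conjugation invariant). -/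
theorem dsi_contains_sl2 (l : ℕ) [Fact l.Prime] (G : Subgroup (GL (Fin 2) (ZMod l)))
    (hG : DsiSemisimple G) (hl : l ∣ Nat.card G) :
    ∀ g : GL (Fin 2) (ZMod l), (g : Matrix (Fin 2) (Fin 2) (ZMod l)).det = 1 → g ∈ G := by
  obtain ⟨P, a, b, ha, hb, ⟨u, huG, hu⟩, ⟨u', hu'G, hu'⟩⟩ := dsi_exists_transvections l G hG hl
  -- the conjugate subgroup `P⁻¹ G P = {h | P h P⁻¹ ∈ G}`
  set G' : Subgroup (GL (Fin 2) (ZMod l)) := G.comap (MulAut.conj P).toMonoidHom with hG'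
  have hmem : ∀ h : GL (Fin 2) (ZMod l), h ∈ G' ↔ P * h * P⁻¹ ∈ G := by
    intro h
    rw [hG', Subgroup.mem_comap]
    rfl
  have hconj : ∀ w : GL (Fin 2) (ZMod l), P * (P⁻¹ * w * P) * P⁻¹ = w := by
    intro w
    group
  have key := dsi_sl2_gen l G' a b ha hb
    ⟨P⁻¹ * u * P, (hmem _).mpr (by rw [hconj]; exact huG), hu⟩
    ⟨P⁻¹ * u' * P, (hmem _).mpr (by rw [hconj]; exact hu'G), hu'⟩
  intro g hg
  have hdet : ((P⁻¹ * g * P : GL (Fin 2) (ZMod l)) : Matrix (Fin 2) (Fin 2) (ZMod l)).det = 1 := by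
    have h1 : Matrix.GeneralLinearGroup.det (P⁻¹ * g * P) = Matrix.GeneralLinearGroup.det g := by
      rw [map_mul, map_mul, map_inv, mul_comm, ← mul_assoc, mul_inv_cancel, one_mul]
    have h2 := congrArg (fun x : (ZMod l)ˣ => (x : ZMod l)) h1
    simp only [Matrix.GeneralLinearGroup.val_det_apply] at h2
    rw [h2, hg]
  have h3 := (hmem _).mp (key (P⁻¹ * g * P) hdet)
  rwa [hconj] at h3

/-- (I-A5) `|G| ≥ ℓ(ℓ²-1)` if `G ⊇ SL₂(𝔽_ℓ)` (index `≤ ℓ - 1` via `det`, `Matrix.card_GL_field`). -/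
theorem dsi_card_ge_of_sl2 (l : ℕ) [Fact l.Prime] (G : Subgroup (GL (Fin 2) (ZMod l)))
    (h : ∀ g : GL (Fin 2) (ZMod l), (g : Matrix (Fin 2) (Fin 2) (ZMod l)).det = 1 → g ∈ G) :
    l * (l ^ 2 - 1) ≤ Nat.card G := by
  classical
  have hl : l.Prime := Fact.out
  set φ : GL (Fin 2) (ZMod l) →* (ZMod l)ˣ := Matrix.GeneralLinearGroup.det with hφ
  -- the kernel of `det` lies in `G`
  have hker : φ.ker ≤ G := by
    intro g hg
    apply h
    rw [MonoidHom.mem_ker] at hg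
    have h2 := congrArg (fun x : (ZMod l)ˣ => (x : ZMod l)) hg
    simpa [hφ] using h2
  have h1 : Nat.card φ.ker ≤ Nat.card G := Subgroup.card_le_of_le hker
  -- `|GL₂| = |range det| * |ker det| ≤ (l - 1) * |ker det|`
  have h2 : Nat.card (GL (Fin 2) (ZMod l)) = Nat.card φ.range * Nat.card φ.ker := by
    rw [Subgroup.card_eq_card_quotient_mul_card_subgroup φ.ker,
      Nat.card_congr (QuotientGroup.quotientKerEquivRange φ).toEquiv]
  have h3 : Nat.card φ.range ≤ l - 1 := by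
    have := Subgroup.card_le_card_group φ.range
    rwa [Nat.card_eq_fintype_card (α := (ZMod l)ˣ), ZMod.card_units] at this
  have h4 : Nat.card (GL (Fin 2) (ZMod l)) = (l ^ 2 - 1) * (l ^ 2 - l) := by
    rw [Matrix.card_GL_field, Fin.prod_univ_two, ZMod.card]
    simp
  -- arithmetic
  have h5 : (l ^ 2 - 1) * (l ^ 2 - l) = (l - 1) * (l * (l ^ 2 - 1)) := by
    have : l ^ 2 - l = l * (l - 1) := by
      rw [Nat.mul_sub, mul_one, sq]
    rw [this]
    ring
  have h6 : (l - 1) * (l * (l ^ 2 - 1)) ≤ (l - 1) * Nat.card φ.ker := by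
    rw [← h5, ← h4, h2]
    exact Nat.mul_le_mul_right _ h3
  have hpos : 0 < l - 1 := by have := hl.two_le; omega
  exact (Nat.le_of_mul_le_mul_left h6 hpos).trans h1

end Fermat.Agent.DS
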