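import Mathlib
import Fermat.Agent.DS.I.Defs

/-!
# Program DS, package (I), row I-C1 : at most `2 q²` elements of `GL₂(𝔽_q)` with given `(tr, det)`

`h ↦ (h₀₀, h₀₁, true)` if `h₀₁ ≠ 0`, `(h₀₀, h₁₀, false)` otherwise, is injective on a fibre of
`(tr, det)`.
-/

set_option autoImplicit false

namespace Fermat.Agent.DS

open Matrix

/-- the code of a matrix. -/
def dsifgCode {F : Type*} [Field F] [DecidableEq F] (h : GL (Fin 2) F) : F × F × Bool :=
  if (h : Matrix (Fin 2) (Fin 2) F) 0 1 ≠ 0 then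
    ((h : Matrix (Fin 2) (Fin 2) F) 0 0, (h : Matrix (Fin 2) (Fin 2) F) 0 1, true)
  else ((h : Matrix (Fin 2) (Fin 2) F) 0 0, (h : Matrix (Fin 2) (Fin 2) F) 1 0, false)

theorem dsifg_ext {F : Type*} [Field F] {h h' : GL (Fin 2) F}
    (h00 : (h : Matrix (Fin 2) (Fin 2) F) 0 0 = (h' : Matrix (Fin 2) (Fin 2) F) 0 0)
    (h01 : (h : Matrix (Fin 2) (Fin 2) F) 0 1 = (h' : Matrix (Fin 2) (Fin 2) F) 0 1)
    (h10 : (h : Matrix (Fin 2) (Fin 2) F) 1 0 = (h' : Matrix (Fin 2) (Fin 2) F) 1 0)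
    (h11 : (h : Matrix (Fin 2) (Fin 2) F) 1 1 = (h' : Matrix (Fin 2) (Fin 2) F) 1 1) : h = h' := by
  apply Units.ext
  ext i j
  fin_cases i <;> fin_cases j <;> assumption

theorem dsifg_code_inj {F : Type*} [Field F] [DecidableEq F] {t d : F} {h h' : GL (Fin 2) F}
    (ht : (h : Matrix (Fin 2) (Fin 2) F).trace = t) (hd : (h : Matrix (Fin 2) (Fin 2) F).det = d)
    (ht' : (h' : Matrix (Fin 2) (Fin 2) F).trace = t)
    (hd' : (h' : Matrix (Fin 2) (Fin 2) F).det = d) (hc : dsifgCode h = dsifgCode h') : h = h' := by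
  rw [Matrix.trace_fin_two] at ht ht'
  rw [Matrix.det_fin_two] at hd hd'
  unfold dsifgCode at hc
  by_cases h1 : (h : Matrix (Fin 2) (Fin 2) F) 0 1 ≠ 0
  · by_cases h1' : (h' : Matrix (Fin 2) (Fin 2) F) 0 1 ≠ 0
    · rw [if_pos h1, if_pos h1'] at hc
      simp only [Prod.mk.injEq, and_true] at hc
      obtain ⟨e00, e01⟩ := hc
      have e11 : (h : Matrix (Fin 2) (Fin 2) F) 1 1 = (h' : Matrix (Fin 2) (Fin 2) F) 1 1 := by
        have : (h : Matrix (Fin 2) (Fin 2) F) 1 1 = t - (h : Matrix (Fin 2) (Fin 2) F) 0 0 := by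
          rw [← ht]; ring
        rw [this, e00, ← ht']; ring
      have e10 : (h : Matrix (Fin 2) (Fin 2) F) 1 0 = (h' : Matrix (Fin 2) (Fin 2) F) 1 0 := by
        have hmul : (h : Matrix (Fin 2) (Fin 2) F) 0 1 * (h : Matrix (Fin 2) (Fin 2) F) 1 0
            = (h : Matrix (Fin 2) (Fin 2) F) 0 1 * (h' : Matrix (Fin 2) (Fin 2) F) 1 0 := by
          have a1 : (h : Matrix (Fin 2) (Fin 2) F) 0 1 * (h : Matrix (Fin 2) (Fin 2) F) 1 0
              = (h : Matrix (Fin 2) (Fin 2) F) 0 0 * (h : Matrix (Fin 2) (Fin 2) F) 1 1 - d := by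
            rw [← hd]; ring
          have a2 : (h' : Matrix (Fin 2) (Fin 2) F) 0 1 * (h' : Matrix (Fin 2) (Fin 2) F) 1 0
              = (h' : Matrix (Fin 2) (Fin 2) F) 0 0 * (h' : Matrix (Fin 2) (Fin 2) F) 1 1 - d := by
            rw [← hd']; ring
          rw [a1, e00, e11, ← a2, e01]
        exact mul_left_cancel₀ h1 hmul
      exact dsifg_ext e00 e01 e10 e11
    · rw [if_pos h1, if_neg h1'] at hc
      simp at hc
  · by_cases h1' : (h' : Matrix (Fin 2) (Fin 2) F) 0 1 ≠ 0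
    · rw [if_neg h1, if_pos h1'] at hc
      simp at hc
    · rw [if_neg h1, if_neg h1'] at hc
      simp only [Prod.mk.injEq, and_true] at hc
      obtain ⟨e00, e10⟩ := hc
      push Not at h1 h1'
      have e01 : (h : Matrix (Fin 2) (Fin 2) F) 0 1 = (h' : Matrix (Fin 2) (Fin 2) F) 0 1 := by
        rw [h1, h1']
      have e11 : (h : Matrix (Fin 2) (Fin 2) F) 1 1 = (h' : Matrix (Fin 2) (Fin 2) F) 1 1 := by
        have : (h : Matrix (Fin 2) (Fin 2) F) 1 1 = t - (h : Matrix (Fin 2) (Fin 2) F) 0 0 := by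
          rw [← ht]; ring
        rw [this, e00, ← ht']; ring
      exact dsifg_ext e00 e01 e10 e11

/-- (I-C1) in `M₂(F)`, `F` finite with `q` elements: at most `2 q²` matrices with given `(tr, det)`
(DS: `q² + q`; the constant is irrelevant). -/
theorem dsi_fibre_gl2 {F : Type*} [Field F] [Fintype F] [DecidableEq F]
    (S : Finset (GL (Fin 2) F)) (t d : F) :
    (S.filter (fun h : GL (Fin 2) F => (h : Matrix (Fin 2) (Fin 2) F).trace = t ∧
      (h : Matrix (Fin 2) (Fin 2) F).det = d)).card ≤ 2 * Fintype.card F ^ 2 := by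
  have h1 : (S.filter (fun h : GL (Fin 2) F => (h : Matrix (Fin 2) (Fin 2) F).trace = t ∧
      (h : Matrix (Fin 2) (Fin 2) F).det = d)).card ≤ (Finset.univ : Finset (F × F × Bool)).card := by
    refine Finset.card_le_card_of_injOn dsifgCode (fun _ _ => Finset.mem_univ _) ?_
    intro h hh h' hh'
    rw [Finset.mem_coe, Finset.mem_filter] at hh hh'
    exact dsifg_code_inj hh.2.1 hh.2.2 hh'.2.1 hh'.2.2
  have h2 : (Finset.univ : Finset (F × F × Bool)).card = 2 * Fintype.card F ^ 2 := by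
    rw [Finset.card_univ, Fintype.card_prod, Fintype.card_prod, Fintype.card_bool]
    ring
  rw [← h2]
  exact h1

end Fermat.Agent.DS
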