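import Mathlib
import Fermat.Agent.DS.I.Defs

/-!
# Program DS, package (I), row I-C3 : at most `2` elements with given `(tr, det)` in a coset of the
scalars (`det (z g) = z² det g`).
-/

set_option autoImplicit false

namespace Fermat.Agent.DS

open Matrix

theorem dsifc_eq_of_smul {F : Type*} [Field F] {g h h' : GL (Fin 2) F} {z : F}
    (hz : (h : Matrix (Fin 2) (Fin 2) F) = z • (g : Matrix (Fin 2) (Fin 2) F))
    (hz' : (h' : Matrix (Fin 2) (Fin 2) F) = z • (g : Matrix (Fin 2) (Fin 2) F)) : h = h' :=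
  Units.ext (hz.trans hz'.symm)

theorem dsifc_sq {F : Type*} [Field F] {g h : GL (Fin 2) F} {z d : F}
    (hz : (h : Matrix (Fin 2) (Fin 2) F) = z • (g : Matrix (Fin 2) (Fin 2) F))
    (hd : (h : Matrix (Fin 2) (Fin 2) F).det = d) :
    z ^ 2 = d / (g : Matrix (Fin 2) (Fin 2) F).det := by
  have hg : (g : Matrix (Fin 2) (Fin 2) F).det ≠ 0 := by
    have := Matrix.GeneralLinearGroup.det_ne_zero g
    exact this
  rw [hz, Matrix.det_smul, Fintype.card_fin] at hd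
  rw [eq_div_iff hg, hd]

/-- (I-C3) in a coset of the scalars: at most `2` (`z² det g = d`). -/
theorem dsi_fibre_coset {F : Type*} [Field F] [DecidableEq F] (g : GL (Fin 2) F)
    (S : Finset (GL (Fin 2) F))
    (hS : ∀ h ∈ S, ∃ z : F, (h : Matrix (Fin 2) (Fin 2) F) = z • (g : Matrix (Fin 2) (Fin 2) F))
    (t d : F) :
    (S.filter (fun h : GL (Fin 2) F => (h : Matrix (Fin 2) (Fin 2) F).trace = t ∧
      (h : Matrix (Fin 2) (Fin 2) F).det = d)).card ≤ 2 := by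
  by_contra hcard
  push Not at hcard
  obtain ⟨h₁, m₁, h₂, m₂, h₃, m₃, n₁₂, n₁₃, n₂₃⟩ := Finset.two_lt_card.mp hcard
  rw [Finset.mem_filter] at m₁ m₂ m₃
  obtain ⟨z₁, e₁⟩ := hS h₁ m₁.1
  obtain ⟨z₂, e₂⟩ := hS h₂ m₂.1
  obtain ⟨z₃, e₃⟩ := hS h₃ m₃.1
  have s₁ := dsifc_sq e₁ m₁.2.2
  have s₂ := dsifc_sq e₂ m₂.2.2
  have s₃ := dsifc_sq e₃ m₃.2.2
  have c₁₂ : z₁ = z₂ ∨ z₁ = -z₂ := sq_eq_sq_iff_eq_or_eq_neg.mp (s₁.trans s₂.symm)
  have c₁₃ : z₁ = z₃ ∨ z₁ = -z₃ := sq_eq_sq_iff_eq_or_eq_neg.mp (s₁.trans s₃.symm)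
  rcases c₁₂ with c₁₂ | c₁₂
  · exact n₁₂ (dsifc_eq_of_smul e₁ (c₁₂ ▸ e₂))
  rcases c₁₃ with c₁₃ | c₁₃
  · exact n₁₃ (dsifc_eq_of_smul e₁ (c₁₃ ▸ e₃))
  have c₂₃ : z₂ = z₃ := by
    have : -z₂ = -z₃ := c₁₂.symm.trans c₁₃
    exact neg_injective this
  exact n₂₃ (dsifc_eq_of_smul e₂ (c₂₃ ▸ e₃))

end Fermat.Agent.DS
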