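import Mathlib
import Fermat.Agent.DS.I.Defs
import Fermat.Agent.DS.I.FibreCoset

/-!
# Program DS, package (I), row I-C4 : `dsi_fibre_proj` (helper27)
-/

set_option autoImplicit false

namespace Fermat.Agent.DS

open Matrix

/-- (I-C4) at most `2 · [G : Z]` elements of `G` with given `(tr, det)`. -/
theorem dsi_fibre_proj {F : Type*} [Field F] [Fintype F] [DecidableEq F]
    (G : Subgroup (GL (Fin 2) F)) (c : ℕ) (hc : Nat.card G ≤ c * Nat.card (dsiScalars G))
    (S : Finset (GL (Fin 2) F)) (hS : ∀ h ∈ S, h ∈ G) (t d : F) :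
    (S.filter (fun h : GL (Fin 2) F => (h : Matrix (Fin 2) (Fin 2) F).trace = t ∧
      (h : Matrix (Fin 2) (Fin 2) F).det = d)).card ≤ 2 * c := by
  classical
  set T := S.filter (fun h : GL (Fin 2) F => (h : Matrix (Fin 2) (Fin 2) F).trace = t ∧
      (h : Matrix (Fin 2) (Fin 2) F).det = d) with hT
  set Z' : Subgroup G := (dsiScalars G).subgroupOf G with hZ'
  have hZcard : Nat.card Z' = Nat.card (dsiScalars G) := by
    have hle : dsiScalars G ≤ G := inf_le_left
    exact Nat.card_congr (Subgroup.subgroupOfEquivOfLe hle).toEquiv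
  have hZpos : 0 < Nat.card (dsiScalars G) := Nat.card_pos
  -- the number of cosets
  have hq : Nat.card (G ⧸ Z') ≤ c := by
    have h1 := Z'.card_mul_index
    rw [Subgroup.index_eq_card, hZcard] at h1
    rw [← h1, mul_comm] at hc
    exact Nat.le_of_mul_le_mul_right hc hZpos
  -- transport to `G`
  set T' : Finset G := T.subtype (· ∈ G) with hT'
  have hcardT : T'.card = T.card := by
    rw [hT', Finset.card_subtype]
    congr 1
    apply Finset.filter_true_of_mem
    intro x hx
    exact hS x (Finset.mem_of_mem_filter x hx)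
  rw [← hcardT]
  have himg : (T'.image (QuotientGroup.mk : G → G ⧸ Z')).card ≤ c := by
    haveI : Fintype (G ⧸ Z') := Fintype.ofFinite _
    calc (T'.image (QuotientGroup.mk : G → G ⧸ Z')).card ≤ Fintype.card (G ⧸ Z') :=
          Finset.card_le_univ _
      _ = Nat.card (G ⧸ Z') := (Nat.card_eq_fintype_card).symm
      _ ≤ c := hq
  have hfib : ∀ q ∈ T'.image (QuotientGroup.mk : G → G ⧸ Z'),
      (T'.filter (fun x => (QuotientGroup.mk x : G ⧸ Z') = q)).card ≤ 2 := by
    intro q hq'
    obtain ⟨h₀, hh₀, rfl⟩ := Finset.mem_image.mp hq'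
    set U := (T'.filter (fun x => (QuotientGroup.mk x : G ⧸ Z') = QuotientGroup.mk h₀)) with hU
    set V : Finset (GL (Fin 2) F) := U.map ⟨Subtype.val, Subtype.val_injective⟩ with hV
    have hUV : U.card = V.card := (Finset.card_map _).symm
    have hVf : V.filter (fun h : GL (Fin 2) F => (h : Matrix (Fin 2) (Fin 2) F).trace = t ∧
        (h : Matrix (Fin 2) (Fin 2) F).det = d) = V := by
      apply Finset.filter_true_of_mem
      intro x hx
      obtain ⟨y, hy, rfl⟩ := Finset.mem_map.mp hx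
      have hy' : y ∈ T' := Finset.mem_of_mem_filter y hy
      rw [hT', Finset.mem_subtype, hT, Finset.mem_filter] at hy'
      exact hy'.2
    rw [hUV, ← hVf]
    apply dsi_fibre_coset (h₀ : GL (Fin 2) F)
    intro x hx
    obtain ⟨y, hy, rfl⟩ := Finset.mem_map.mp hx
    have hy2 : (QuotientGroup.mk y : G ⧸ Z') = QuotientGroup.mk h₀ := (Finset.mem_filter.mp hy).2
    rw [QuotientGroup.eq] at hy2
    -- y⁻¹ * h₀ ∈ Z'
    have hz : ((y⁻¹ * h₀ : G) : GL (Fin 2) F) ∈ dsiScalars G := hy2
    have hzc : ((y⁻¹ * h₀ : G) : GL (Fin 2) F) ∈ Subgroup.center (GL (Fin 2) F) :=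
      (Subgroup.mem_inf.mp hz).2
    rw [Matrix.GeneralLinearGroup.mem_center_iff_val_mem_range_scalar] at hzc
    obtain ⟨a, ha⟩ := hzc
    -- h₀ = y * scalar a
    have h1 : ((h₀ : GL (Fin 2) F) : Matrix (Fin 2) (Fin 2) F)
        = ((y : GL (Fin 2) F) : Matrix (Fin 2) (Fin 2) F) * Matrix.scalar (Fin 2) a := by
      rw [ha]
      have : (h₀ : GL (Fin 2) F) = (y : GL (Fin 2) F) * ((y⁻¹ * h₀ : G) : GL (Fin 2) F) := by
        simp
      conv_lhs => rw [this]
      rfl
    have ha0 : a ≠ 0 := by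
      intro h0
      have hdet : ((h₀ : GL (Fin 2) F) : Matrix (Fin 2) (Fin 2) F).det = 0 := by
        rw [h1, h0]; simp
      have := (h₀ : GL (Fin 2) F).isUnit.map (Matrix.detMonoidHom (n := Fin 2) (R := F))
      exact this.ne_zero hdet
    refine ⟨a⁻¹, ?_⟩
    simp only [Function.Embedding.coeFn_mk]
    rw [h1]
    ext i j
    simp only [Matrix.smul_apply, smul_eq_mul, Matrix.mul_apply, Fin.sum_univ_two,
      Matrix.scalar_apply, Matrix.diagonal_apply]
    fin_cases i <;> fin_cases j <;> simp <;> field_simp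
  calc T'.card ≤ 2 * (T'.image (QuotientGroup.mk : G → G ⧸ Z')).card :=
        Finset.card_le_mul_card_image T' 2 hfib
    _ ≤ 2 * c := Nat.mul_le_mul_left _ himg

end Fermat.Agent.DS
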