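import Mathlib

/-!
# Program DS, package (I) : elementary 2×2 linear algebra (helper27)
-/

set_option autoImplicit false

namespace Fermat.Agent.DS

open Matrix
open scoped LinearAlgebra.Projectivization

/-- Cayley–Hamilton for 2×2 matrices, explicit -/
theorem dsi_cayley {K : Type*} [CommRing K] (A : Matrix (Fin 2) (Fin 2) K) :
    A * A = A.trace • A - A.det • (1 : Matrix (Fin 2) (Fin 2) K) := by
  ext i j
  fin_cases i <;> fin_cases j <;>
    simp [Matrix.mul_apply, Fin.sum_univ_two, Matrix.trace_fin_two, Matrix.det_fin_two] <;> ring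

/-- eigenvector for a root of the characteristic equation -/
theorem dsi_exists_eigvec {K : Type*} [Field K] (A : Matrix (Fin 2) (Fin 2) K) (α : K)
    (hα : α * α - A.trace * α + A.det = 0) :
    ∃ v : Fin 2 → K, v ≠ 0 ∧ A.mulVec v = α • v := by
  have hdet : (A - α • (1 : Matrix (Fin 2) (Fin 2) K)).det = 0 := by
    rw [Matrix.det_fin_two]
    simp only [Matrix.sub_apply, Matrix.smul_apply, Matrix.one_apply_eq, smul_eq_mul, mul_one,
      Matrix.one_apply_ne (show (0 : Fin 2) ≠ 1 by decide),
      Matrix.one_apply_ne (show (1 : Fin 2) ≠ 0 by decide), mul_zero, sub_zero]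
    rw [Matrix.trace_fin_two, Matrix.det_fin_two] at hα
    linear_combination hα
  obtain ⟨v, hv, hv0⟩ := (Matrix.exists_mulVec_eq_zero_iff).mpr hdet
  refine ⟨v, hv, ?_⟩
  rw [Matrix.sub_mulVec, Matrix.smul_mulVec, Matrix.one_mulVec, sub_eq_zero] at hv0
  exact hv0

/-- a non-zero vector `v` of `K²` and a vector `w` which is not a multiple of `v` span `K²` -/
theorem dsi_span_of_not_smul {K : Type*} [Field K] (v w : Fin 2 → K) (hv : v ≠ 0)
    (hw : ∀ c : K, w ≠ c • v) (u : Fin 2 → K) : ∃ x y : K, u = x • v + y • w := by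
  have hD : v 0 * w 1 - v 1 * w 0 ≠ 0 := by
    intro hD
    by_cases h0 : v 0 = 0
    · have h1 : v 1 ≠ 0 := by
        intro h1; apply hv; ext i; fin_cases i <;> simp [h0, h1]
      apply hw (w 1 / v 1)
      ext i; fin_cases i
      · simp only [Fin.zero_eta, Fin.isValue, Pi.smul_apply, smul_eq_mul]
        rw [h0, zero_mul, zero_sub, neg_eq_zero] at hD
        rcases mul_eq_zero.mp hD with h | h
        · exact absurd h h1
        · rw [h, h0, mul_zero]
      · simp only [Fin.mk_one, Fin.isValue, Pi.smul_apply, smul_eq_mul]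
        field_simp
    · apply hw (w 0 / v 0)
      ext i; fin_cases i
      · simp only [Fin.zero_eta, Fin.isValue, Pi.smul_apply, smul_eq_mul]
        field_simp
      · simp only [Fin.mk_one, Fin.isValue, Pi.smul_apply, smul_eq_mul]
        field_simp
        linear_combination hD
  refine ⟨(u 0 * w 1 - u 1 * w 0) / (v 0 * w 1 - v 1 * w 0),
    (v 0 * u 1 - v 1 * u 0) / (v 0 * w 1 - v 1 * w 0), ?_⟩
  ext i; fin_cases i
  · simp only [Fin.zero_eta, Fin.isValue, Pi.add_apply, Pi.smul_apply, smul_eq_mul]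
    rw [div_mul_eq_mul_div, div_mul_eq_mul_div, ← add_div, eq_div_iff hD]
    ring
  · simp only [Fin.mk_one, Fin.isValue, Pi.add_apply, Pi.smul_apply, smul_eq_mul]
    rw [div_mul_eq_mul_div, div_mul_eq_mul_div, ← add_div, eq_div_iff hD]
    ring

/-- … and are linearly independent -/
theorem dsi_indep_of_not_smul {K : Type*} [Field K] (v w : Fin 2 → K) (hv : v ≠ 0)
    (hw : ∀ c : K, w ≠ c • v) (x y : K) (h : x • v + y • w = 0) : x = 0 ∧ y = 0 := by
  have hy : y = 0 := by
    by_contra hy
    apply hw (-x / y)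
    have : y • w = -(x • v) := eq_neg_of_add_eq_zero_right h
    have h2 : w = y⁻¹ • (y • w) := by rw [smul_smul, inv_mul_cancel₀ hy, one_smul]
    rw [h2, this, smul_neg, ← neg_smul, smul_smul]
    congr 1
    field_simp
  refine ⟨?_, hy⟩
  rw [hy, zero_smul, add_zero] at h
  rcases smul_eq_zero.mp h with h' | h'
  · exact h'
  · exact absurd h' hv

/-- eigenvectors for distinct eigenvalues are not proportional -/
theorem dsi_not_smul_of_eig {K : Type*} [Field K] (A : Matrix (Fin 2) (Fin 2) K)
    (v w : Fin 2 → K) (a b : K) (hab : a ≠ b) (hw : w ≠ 0)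
    (hAv : A.mulVec v = a • v) (hAw : A.mulVec w = b • w) : ∀ c : K, w ≠ c • v := by
  intro c hc
  have h1 : A.mulVec w = a • w := by
    rw [hc, Matrix.mulVec_smul, hAv, smul_comm]
  rw [hAw] at h1
  have h2 : (b - a) • w = 0 := by rw [sub_smul, h1, sub_self]
  rcases smul_eq_zero.mp h2 with h | h
  · exact hab (sub_eq_zero.mp h).symm
  · exact hw h

/-- an eigenvector of a matrix with two eigenvectors `v, w` for distinct eigenvalues is
proportional to `v` or to `w` -/
theorem dsi_eig_cases {K : Type*} [Field K] (A : Matrix (Fin 2) (Fin 2) K)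
    (v w : Fin 2 → K) (a b : K) (hab : a ≠ b) (hv : v ≠ 0) (hw : w ≠ 0)
    (hAv : A.mulVec v = a • v) (hAw : A.mulVec w = b • w) (u : Fin 2 → K) (c : K)
    (hAu : A.mulVec u = c • u) : (∃ x : K, u = x • v) ∨ (∃ y : K, u = y • w) := by
  have hns := dsi_not_smul_of_eig A v w a b hab hw hAv hAw
  obtain ⟨x, y, hu⟩ := dsi_span_of_not_smul v w hv hns u
  have h1 : (x * (a - c)) • v + (y * (b - c)) • w = 0 := by
    have : A.mulVec u = (x * a) • v + (y * b) • w := by
      rw [hu, Matrix.mulVec_add, Matrix.mulVec_smul, Matrix.mulVec_smul, hAv, hAw, smul_smul,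
        smul_smul]
    rw [hAu, hu, smul_add, smul_smul, smul_smul] at this
    have h3 : (x * a) • v + (y * b) • w - ((c * x) • v + (c * y) • w) = 0 := by
      rw [this]; exact sub_self _
    rw [← h3]
    simp only [mul_sub, sub_smul]
    rw [mul_comm c x, mul_comm c y]
    abel
  obtain ⟨hx, hy⟩ := dsi_indep_of_not_smul v w hv hns _ _ h1
  by_cases hx0 : x = 0
  · right; exact ⟨y, by rw [hu, hx0, zero_smul, zero_add]⟩
  · by_cases hy0 : y = 0
    · left; exact ⟨x, by rw [hu, hy0, zero_smul, add_zero]⟩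
    · exfalso
      have ha : a = c := by
        rcases mul_eq_zero.mp hx with h | h
        · exact absurd h hx0
        · exact sub_eq_zero.mp h
      have hb : b = c := by
        rcases mul_eq_zero.mp hy with h | h
        · exact absurd h hy0
        · exact sub_eq_zero.mp h
      exact hab (ha.trans hb.symm)

theorem dsi_gl_smul_def {K : Type*} [Field K] (g : GL (Fin 2) K) (v : Fin 2 → K) :
    g • v = (g : Matrix (Fin 2) (Fin 2) K).mulVec v := rfl


end Fermat.Agent.DS
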