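import Mathlib
import Fermat.Agent.DS.I.Defs
import Fermat.Agent.DS.I.LinAlg

/-!
# Program DS, package (I), row I-C2 : `dsi_fibre_split` (helper27)
-/

set_option autoImplicit false

namespace Fermat.Agent.DS

open Matrix

/-- trace of a 2×2 matrix with eigenvectors `v, w` spanning the plane -/
theorem dsi_trace_of_eig {K : Type*} [Field K] (A : Matrix (Fin 2) (Fin 2) K)
    (v w : Fin 2 → K) (a b : K) (hD : v 0 * w 1 - v 1 * w 0 ≠ 0)
    (hAv : A.mulVec v = a • v) (hAw : A.mulVec w = b • w) : A.trace = a + b := by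
  have e1 : A 0 0 * v 0 + A 0 1 * v 1 = a * v 0 := by
    simpa [Matrix.mulVec, dotProduct, Fin.sum_univ_two] using congrFun hAv 0
  have e2 : A 1 0 * v 0 + A 1 1 * v 1 = a * v 1 := by
    simpa [Matrix.mulVec, dotProduct, Fin.sum_univ_two] using congrFun hAv 1
  have e3 : A 0 0 * w 0 + A 0 1 * w 1 = b * w 0 := by
    simpa [Matrix.mulVec, dotProduct, Fin.sum_univ_two] using congrFun hAw 0
  have e4 : A 1 0 * w 0 + A 1 1 * w 1 = b * w 1 := by
    simpa [Matrix.mulVec, dotProduct, Fin.sum_univ_two] using congrFun hAw 1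
  rw [Matrix.trace_fin_two]
  apply mul_right_cancel₀ hD
  linear_combination w 1 * e1 - v 1 * e3 + v 0 * e4 - w 0 * e2

/-- determinant of a 2×2 matrix with eigenvectors `v, w` spanning the plane -/
theorem dsi_det_of_eig {K : Type*} [Field K] (A : Matrix (Fin 2) (Fin 2) K)
    (v w : Fin 2 → K) (a b : K) (hD : v 0 * w 1 - v 1 * w 0 ≠ 0)
    (hAv : A.mulVec v = a • v) (hAw : A.mulVec w = b • w) : A.det = a * b := by
  have e1 : A 0 0 * v 0 + A 0 1 * v 1 = a * v 0 := by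
    simpa [Matrix.mulVec, dotProduct, Fin.sum_univ_two] using congrFun hAv 0
  have e2 : A 1 0 * v 0 + A 1 1 * v 1 = a * v 1 := by
    simpa [Matrix.mulVec, dotProduct, Fin.sum_univ_two] using congrFun hAv 1
  have e3 : A 0 0 * w 0 + A 0 1 * w 1 = b * w 0 := by
    simpa [Matrix.mulVec, dotProduct, Fin.sum_univ_two] using congrFun hAw 0
  have e4 : A 1 0 * w 0 + A 1 1 * w 1 = b * w 1 := by
    simpa [Matrix.mulVec, dotProduct, Fin.sum_univ_two] using congrFun hAw 1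
  rw [Matrix.det_fin_two]
  apply mul_right_cancel₀ hD
  linear_combination (A 1 0 * w 0 + A 1 1 * w 1) * e1 + a * v 0 * e4
    - (A 0 0 * w 0 + A 0 1 * w 1) * e2 - a * v 1 * e3

/-- the "determinant" of a non-proportional pair is non-zero -/
theorem dsi_D_ne_zero {K : Type*} [Field K] (v w : Fin 2 → K) (hv : v ≠ 0)
    (hw : ∀ c : K, w ≠ c • v) : v 0 * w 1 - v 1 * w 0 ≠ 0 := by
  intro hD
  by_cases h0 : v 0 = 0
  · have h1 : v 1 ≠ 0 := by
      intro h1; apply hv; ext i; fin_cases i <;> simp [h0, h1]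
    apply hw (w 1 / v 1)
    ext i; fin_cases i
    · simp only [Fin.zero_eta, Fin.isValue, Pi.smul_apply, smul_eq_mul]
      rw [h0, zero_mul, zero_sub, neg_eq_zero] at hD
      rcases mul_eq_zero.mp hD with h | h
      · exact absurd h h1
      · rw [h, h0, mul_zero]
    · simp only [Fin.mk_one, Fin.isValue, Pi.smul_apply, smul_eq_mul]
      field_simp
  · apply hw (w 0 / v 0)
    ext i; fin_cases i
    · simp only [Fin.zero_eta, Fin.isValue, Pi.smul_apply, smul_eq_mul]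
      field_simp
    · simp only [Fin.mk_one, Fin.isValue, Pi.smul_apply, smul_eq_mul]
      field_simp
      linear_combination hD

/-- two matrices agreeing on a spanning pair are equal -/
theorem dsi_mat_eq_of_eig {K : Type*} [Field K] (A B : Matrix (Fin 2) (Fin 2) K)
    (v w : Fin 2 → K) (hv : v ≠ 0) (hw : ∀ c : K, w ≠ c • v)
    (h1 : A.mulVec v = B.mulVec v) (h2 : A.mulVec w = B.mulVec w) : A = B := by
  rw [Matrix.ext_iff_mulVec]
  intro u
  obtain ⟨x, y, rfl⟩ := dsi_span_of_not_smul v w hv hw u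
  rw [Matrix.mulVec_add, Matrix.mulVec_add, Matrix.mulVec_smul, Matrix.mulVec_smul,
    Matrix.mulVec_smul, Matrix.mulVec_smul, h1, h2]

theorem dsi_eig_pair_eq {K : Type*} [Field K] (a b a' b' : K) (h1 : a' + b' = a + b)
    (h2 : a' * b' = a * b) : (a' = a ∧ b' = b) ∨ (a' = b ∧ b' = a) := by
  have h : (a' - a) * (a' - b) = 0 := by
    linear_combination a' * h1 - h2
  rcases mul_eq_zero.mp h with h | h
  · left
    have ha : a' = a := sub_eq_zero.mp h
    exact ⟨ha, by rw [ha] at h1; exact add_left_cancel h1⟩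
  · right
    have ha : a' = b := sub_eq_zero.mp h
    refine ⟨ha, ?_⟩
    rw [ha] at h1
    have : b + b' = b + a := by rw [h1, add_comm]
    exact add_left_cancel this

theorem dsiMat_injective {F : Type*} [Field F] (K : Type*) [Field K] [Algebra F K]
    (g₁ g₂ : GL (Fin 2) F) (h : dsiMat K g₁ = dsiMat K g₂) : g₁ = g₂ := by
  apply Units.ext
  ext i j
  have := congrFun (congrFun h i) j
  simp only [dsiMat, Matrix.map_apply] at this
  exact (algebraMap F K).injective this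

theorem dsiMat_trace {F : Type*} [Field F] (K : Type*) [Field K] [Algebra F K]
    (g : GL (Fin 2) F) :
    (dsiMat K g).trace = algebraMap F K (g : Matrix (Fin 2) (Fin 2) F).trace := by
  simp [dsiMat, Matrix.trace_fin_two]

theorem dsiMat_det {F : Type*} [Field F] (K : Type*) [Field K] [Algebra F K]
    (g : GL (Fin 2) F) :
    (dsiMat K g).det = algebraMap F K (g : Matrix (Fin 2) (Fin 2) F).det := by
  simp [dsiMat, Matrix.det_fin_two]

/-- (I-C2) in a group which is diagonalisable over some extension: at most `2`. -/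
theorem dsi_fibre_split {F : Type*} [Field F] [DecidableEq F] (K : Type*) [Field K] [Algebra F K]
    (G' : Subgroup (GL (Fin 2) F)) (hG' : DsiSplitOver K G')
    (S : Finset (GL (Fin 2) F)) (hS : ∀ h ∈ S, h ∈ G') (t d : F) :
    (S.filter (fun h : GL (Fin 2) F => (h : Matrix (Fin 2) (Fin 2) F).trace = t ∧
      (h : Matrix (Fin 2) (Fin 2) F).det = d)).card ≤ 2 := by
  classical
  obtain ⟨v, w, hv, hw, hsv, hsw⟩ := hG'
  have hD := dsi_D_ne_zero v w hv hw
  by_contra hgt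
  push Not at hgt
  obtain ⟨g₁, g₂, g₃, h₁, h₂, h₃, h12, h13, h23⟩ := Finset.two_lt_card_iff.mp hgt
  simp only [Finset.mem_filter] at h₁ h₂ h₃
  obtain ⟨a₁, ha₁⟩ := hsv g₁ (hS _ h₁.1)
  obtain ⟨b₁, hb₁⟩ := hsw g₁ (hS _ h₁.1)
  obtain ⟨a₂, ha₂⟩ := hsv g₂ (hS _ h₂.1)
  obtain ⟨b₂, hb₂⟩ := hsw g₂ (hS _ h₂.1)
  obtain ⟨a₃, ha₃⟩ := hsv g₃ (hS _ h₃.1)
  obtain ⟨b₃, hb₃⟩ := hsw g₃ (hS _ h₃.1)
  have T : ∀ (g : GL (Fin 2) F) (a b : K), (dsiMat K g).mulVec v = a • v →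
      (dsiMat K g).mulVec w = b • w → (g : Matrix (Fin 2) (Fin 2) F).trace = t →
      (g : Matrix (Fin 2) (Fin 2) F).det = d →
      a + b = algebraMap F K t ∧ a * b = algebraMap F K d := by
    intro g a b hga hgb ht hd
    constructor
    · rw [← dsi_trace_of_eig _ v w a b hD hga hgb, dsiMat_trace, ht]
    · rw [← dsi_det_of_eig _ v w a b hD hga hgb, dsiMat_det, hd]
  obtain ⟨s1, p1⟩ := T g₁ a₁ b₁ ha₁ hb₁ h₁.2.1 h₁.2.2
  obtain ⟨s2, p2⟩ := T g₂ a₂ b₂ ha₂ hb₂ h₂.2.1 h₂.2.2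
  obtain ⟨s3, p3⟩ := T g₃ a₃ b₃ ha₃ hb₃ h₃.2.1 h₃.2.2
  have E : ∀ (g g' : GL (Fin 2) F) (a b : K), (dsiMat K g).mulVec v = a • v →
      (dsiMat K g).mulVec w = b • w → (dsiMat K g').mulVec v = a • v →
      (dsiMat K g').mulVec w = b • w → g = g' := by
    intro g g' a b h1 h2 h3 h4
    apply dsiMat_injective K
    exact dsi_mat_eq_of_eig _ _ v w hv hw (h1.trans h3.symm) (h2.trans h4.symm)
  rcases dsi_eig_pair_eq a₁ b₁ a₂ b₂ (s2.trans s1.symm) (p2.trans p1.symm) with ⟨e1, e2⟩ | ⟨e1, e2⟩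
  · exact h12 (E g₁ g₂ a₁ b₁ ha₁ hb₁ (e1 ▸ ha₂) (e2 ▸ hb₂))
  · rcases dsi_eig_pair_eq a₁ b₁ a₃ b₃ (s3.trans s1.symm) (p3.trans p1.symm) with
      ⟨f1, f2⟩ | ⟨f1, f2⟩
    · exact h13 (E g₁ g₃ a₁ b₁ ha₁ hb₁ (f1 ▸ ha₃) (f2 ▸ hb₃))
    · exact h23 (E g₂ g₃ b₁ a₁ (e1 ▸ ha₂) (e2 ▸ hb₂) (f1 ▸ ha₃) (f2 ▸ hb₃))

end Fermat.Agent.DS
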