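import Mathlib
import Fermat.Agent.DS.I.LinAlg

/-!
# Program DS, package (I) : row I-B4 `dsi_semisimple_elt` (helper27)
-/

set_option autoImplicit false

namespace Fermat.Agent.DS

open Matrix
open scoped LinearAlgebra.Projectivization

/-- powers of `α + N` with `N² = 0` -/
theorem dsi_pow_nilp {K : Type*} [Field K] (N : Matrix (Fin 2) (Fin 2) K) (hN : N * N = 0) (α : K)
    (k : ℕ) :
    (α • (1 : Matrix (Fin 2) (Fin 2) K) + N) ^ (k + 1) =
      (α ^ (k + 1)) • (1 : Matrix (Fin 2) (Fin 2) K) + ((k + 1 : ℕ) * α ^ k : K) • N := by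
  induction k with
  | zero => simp
  | succ k ih =>
    rw [pow_succ, ih]
    simp only [Matrix.add_mul, Matrix.mul_add, Matrix.smul_mul, Matrix.mul_smul, Matrix.one_mul,
      Matrix.mul_one, hN, smul_zero, add_zero, smul_smul, smul_add]
    ext i j
    simp only [Matrix.add_apply, Matrix.smul_apply, smul_eq_mul]
    push_cast
    ring

/-- (I-B4) an element of `GL₂(K)` of finite order prime to `char K` (`K` algebraically closed) is
scalar or has two eigenvectors with DISTINCT eigenvalues. -/
theorem dsi_semisimple_elt {K : Type*} [Field K] [IsAlgClosed K] (g : GL (Fin 2) K) (n : ℕ)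
    (hn : (n : K) ≠ 0) (hg : g ^ n = 1) :
    (∃ a : K, (g : Matrix (Fin 2) (Fin 2) K) = Matrix.scalar (Fin 2) a) ∨
    ∃ (v w : Fin 2 → K) (a b : K), a ≠ b ∧ v ≠ 0 ∧ w ≠ 0 ∧
      (g : Matrix (Fin 2) (Fin 2) K).mulVec v = a • v ∧
      (g : Matrix (Fin 2) (Fin 2) K).mulVec w = b • w := by
  set A : Matrix (Fin 2) (Fin 2) K := (g : Matrix (Fin 2) (Fin 2) K) with hA
  -- a root of the characteristic equation
  obtain ⟨α, hα⟩ : ∃ α : K, α * α - A.trace * α + A.det = 0 := by
    obtain ⟨α, hα⟩ := IsAlgClosed.exists_root
      (Polynomial.X ^ 2 - Polynomial.C A.trace * Polynomial.X + Polynomial.C A.det : Polynomial K)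
      (by
        have : (Polynomial.X ^ 2 - Polynomial.C A.trace * Polynomial.X + Polynomial.C A.det :
            Polynomial K).degree = 2 := by
          compute_degree!
        rw [this]; norm_num)
    refine ⟨α, ?_⟩
    simp only [Polynomial.IsRoot, Polynomial.eval_add, Polynomial.eval_sub, Polynomial.eval_pow,
      Polynomial.eval_X, Polynomial.eval_mul, Polynomial.eval_C] at hα
    linear_combination hα
  set β : K := A.trace - α with hβ
  have hβr : β * β - A.trace * β + A.det = 0 := by
    rw [hβ]; linear_combination hα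
  obtain ⟨v, hv, hAv⟩ := dsi_exists_eigvec A α hα
  obtain ⟨w, hw, hAw⟩ := dsi_exists_eigvec A β hβr
  by_cases hab : α = β
  · -- repeated eigenvalue: scalar
    left
    refine ⟨α, ?_⟩
    have htr : A.trace = 2 * α := by rw [hβ] at hab; linear_combination -hab
    have hdt : A.det = α * α := by rw [htr] at hα; linear_combination hα
    set N : Matrix (Fin 2) (Fin 2) K := A - α • (1 : Matrix (Fin 2) (Fin 2) K) with hNdef
    have hAN : A = α • (1 : Matrix (Fin 2) (Fin 2) K) + N := by rw [hNdef]; abel
    have hN : N * N = 0 := by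
      rw [hNdef]
      simp only [Matrix.sub_mul, Matrix.mul_sub, Matrix.smul_mul, Matrix.mul_smul, Matrix.one_mul,
        Matrix.mul_one, smul_sub, smul_smul]
      rw [dsi_cayley A, htr, hdt]
      ext i j
      simp only [Matrix.sub_apply, Matrix.smul_apply, smul_eq_mul, Matrix.zero_apply]
      ring
    have hdet0 : A.det ≠ 0 := by
      have := g.isUnit.map (Matrix.detMonoidHom (n := Fin 2) (R := K))
      exact this.ne_zero
    have hα0 : α ≠ 0 := by
      intro h; apply hdet0; rw [hdt, h, mul_zero]
    have hn0 : n ≠ 0 := by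
      intro h; apply hn; rw [h]; simp
    obtain ⟨k, rfl⟩ := Nat.exists_eq_succ_of_ne_zero hn0
    have hpow : A ^ (k + 1) = 1 := by
      have := congrArg (fun x : GL (Fin 2) K => (x : Matrix (Fin 2) (Fin 2) K)) hg
      simpa using this
    rw [hAN, dsi_pow_nilp N hN α k] at hpow
    -- multiply by N
    have h1 : (α ^ (k + 1)) • N = N := by
      have := congrArg (fun M => M * N) hpow
      simp only [Matrix.add_mul, Matrix.smul_mul, Matrix.one_mul, hN, smul_zero, add_zero] at this
      exact this
    have hN0 : N = 0 := by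
      by_contra hne
      have hα1 : α ^ (k + 1) = 1 := by
        by_contra h
        apply hne
        have : (α ^ (k + 1) - 1) • N = 0 := by rw [sub_smul, h1, one_smul, sub_self]
        rcases smul_eq_zero.mp this with h' | h'
        · exact absurd (sub_eq_zero.mp h') h
        · exact h'
      rw [hα1, one_smul, add_eq_left] at hpow
      rcases smul_eq_zero.mp hpow with h' | h'
      · have : ((k + 1 : ℕ) : K) = 0 ∨ α ^ k = 0 := mul_eq_zero.mp h'
        rcases this with h'' | h''
        · exact hn h''
        · exact hα0 (pow_eq_zero_iff (n := k) (by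
            intro hk; rw [hk] at h''; simp at h'') |>.mp h'')
      · exact hne h'
    rw [hAN, hN0, add_zero]
    ext i j
    simp [Matrix.scalar_apply, Matrix.smul_apply, Matrix.one_apply, Matrix.diagonal_apply]
  · right
    exact ⟨v, w, α, β, hab, hv, hw, hAv, hAw⟩


end Fermat.Agent.DS
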