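import Mathlib
import Fermat.Agent.DS.I.LinAlg
import Fermat.Agent.DS.I.Elt

/-!
# Program DS, package (I) : row I-B5 `dsi_fixedBy_ncard` (helper27)
-/

set_option autoImplicit false

namespace Fermat.Agent.DS

open Matrix
open scoped LinearAlgebra.Projectivization

/-- (I-B5) exactly two fixed points on `ℙ¹(K)` -/
theorem dsi_fixedBy_ncard {K : Type*} [Field K] [IsAlgClosed K] (g : GL (Fin 2) K) (n : ℕ)
    (hn : (n : K) ≠ 0) (hg : g ^ n = 1)
    (hns : ¬ ∃ a : K, (g : Matrix (Fin 2) (Fin 2) K) = Matrix.scalar (Fin 2) a) :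
    (MulAction.fixedBy (ℙ K (Fin 2 → K)) g).ncard = 2 := by
  rcases dsi_semisimple_elt g n hn hg with h | ⟨v, w, a, b, hab, hv, hw, hAv, hAw⟩
  · exact absurd h hns
  have hnsm := dsi_not_smul_of_eig _ v w a b hab hw hAv hAw
  have hne : Projectivization.mk K v hv ≠ Projectivization.mk K w hw := by
    intro h
    rw [Projectivization.mk_eq_mk_iff' K v w hv hw] at h
    obtain ⟨c, hc⟩ := h
    have hc0 : c ≠ 0 := by
      intro h0; apply hv; rw [← hc, h0, zero_smul]
    apply hnsm c⁻¹
    rw [← hc, smul_smul, inv_mul_cancel₀ hc0, one_smul]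
  have hset : MulAction.fixedBy (ℙ K (Fin 2 → K)) g
      = {Projectivization.mk K v hv, Projectivization.mk K w hw} := by
    ext x
    simp only [MulAction.mem_fixedBy, Set.mem_insert_iff, Set.mem_singleton_iff]
    induction x with
    | h u hu =>
      rw [Projectivization.smul_mk]
      constructor
      · intro h
        rw [Projectivization.mk_eq_mk_iff' K _ _ _ hu] at h
        obtain ⟨c, hc⟩ := h
        have hAu : (g : Matrix (Fin 2) (Fin 2) K).mulVec u = c • u := by
          rw [← dsi_gl_smul_def]; exact hc.symm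
        rcases dsi_eig_cases _ v w a b hab hv hw hAv hAw u c hAu with ⟨x, hx⟩ | ⟨y, hy⟩
        · left
          rw [Projectivization.mk_eq_mk_iff' K u v hu hv]
          exact ⟨x, hx.symm⟩
        · right
          rw [Projectivization.mk_eq_mk_iff' K u w hu hw]
          exact ⟨y, hy.symm⟩
      · rintro (h | h)
        · rw [Projectivization.mk_eq_mk_iff' K u v hu hv] at h
          obtain ⟨x, hx⟩ := h
          rw [Projectivization.mk_eq_mk_iff' K _ _ _ hu]
          refine ⟨a, ?_⟩
          rw [dsi_gl_smul_def, ← hx, Matrix.mulVec_smul, hAv, smul_comm]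
        · rw [Projectivization.mk_eq_mk_iff' K u w hu hw] at h
          obtain ⟨y, hy⟩ := h
          rw [Projectivization.mk_eq_mk_iff' K _ _ _ hu]
          refine ⟨b, ?_⟩
          rw [dsi_gl_smul_def, ← hy, Matrix.mulVec_smul, hAw, smul_comm]
  rw [hset, Set.ncard_pair hne]


end Fermat.Agent.DS
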