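import Mathlib

/-!
# Program DS, package (I), row I-B1 : Burnside count with exactly two fixed points (helper27)
-/

set_option autoImplicit false
set_option linter.style.haveILetI false

namespace Fermat.Agent.DS

open MulAction

/-- (I-B1) Burnside on a finite `Γ`-set on which every non-identity element has exactly two fixed
points. -/
theorem dsi_klein_burnside {Γ X : Type*} [Group Γ] [Finite Γ] [MulAction Γ X] [Finite X]
    (h2 : ∀ γ : Γ, γ ≠ 1 → (MulAction.fixedBy X γ).ncard = 2) :
    Nat.card (MulAction.orbitRel.Quotient Γ X) * Nat.card Γ =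
      Nat.card X + 2 * (Nat.card Γ - 1) := by
  classical
  haveI : Fintype Γ := Fintype.ofFinite Γ
  haveI : Fintype X := Fintype.ofFinite X
  haveI : Fintype (MulAction.orbitRel.Quotient Γ X) := Fintype.ofFinite _
  have hB := MulAction.sum_card_fixedBy_eq_card_orbits_mul_card_group Γ X
  rw [Nat.card_eq_fintype_card, Nat.card_eq_fintype_card, Nat.card_eq_fintype_card]
  have hB' : Fintype.card (orbitRel.Quotient Γ X) * Fintype.card Γ
      = ∑ g : Γ, Fintype.card (fixedBy X g) := hB.symm
  rw [hB']
  rw [← Finset.add_sum_erase Finset.univ _ (Finset.mem_univ (1 : Γ))]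
  have h1 : Fintype.card (fixedBy X (1 : Γ)) = Fintype.card X := by
    apply Fintype.card_congr
    refine ⟨fun x => x.1, fun x => ⟨x, by simp⟩, fun x => rfl, fun x => rfl⟩
  rw [h1]
  congr 1
  have h3 : ∀ g ∈ Finset.univ.erase (1 : Γ), Fintype.card (fixedBy X g) = 2 := by
    intro g hg
    have := h2 g (Finset.ne_of_mem_erase hg)
    rw [← this, ← Nat.card_eq_fintype_card]
    rfl
  rw [Finset.sum_congr rfl h3]
  simp [Finset.card_erase_of_mem, mul_comm]

end Fermat.Agent.DS
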