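import Mathlib
import Fermat.Agent.DS.I.Defs

/-!
# Program DS, package (I), row I-B2 : the Diophantine analysis of Klein's count

`r n = ∑ m_i + 2 (n - 1)` with `m_i ∣ n`, `2 m_i ≤ n` forces `r = 2, m = (1,1)`, or `r = 3` and some
`m_i = 2`, or `n ≤ 60` (in fact `n ∈ {12, 24, 60}`).
-/

set_option autoImplicit false

namespace Fermat.Agent.DS

/-- a divisor `x` of `n` with `2 x ≤ n` is `n / 2`, `n / 3` or at most `n / 4`. -/
theorem dsidi_tricho {n x : ℕ} (hx : 0 < x) (hd : x ∣ n) (h2 : 2 * x ≤ n) :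
    2 * x = n ∨ 3 * x = n ∨ 4 * x ≤ n := by
  obtain ⟨e, rfl⟩ := hd
  have he : 2 ≤ e := by
    by_contra hlt
    have : e ≤ 1 := by omega
    have : x * e ≤ x * 1 := Nat.mul_le_mul_left x this
    omega
  rcases (by omega : e = 2 ∨ e = 3 ∨ 4 ≤ e) with rfl | rfl | h4
  · left; ring
  · right; left; ring
  · right; right
    calc 4 * x = x * 4 := by ring
      _ ≤ x * e := Nat.mul_le_mul_left x h4

/-- the case `(n/2, n/3, c)` : `c ∣ 12`. -/
theorem dsidi_aux (a b c n : ℕ) (h2 : 2 * a = n) (h3 : 3 * b = n) (hc : c ∣ n)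
    (hs : a + b + c = n + 2) : n ≤ 60 := by
  have h6 : 6 * c = n + 12 := by omega
  have hdvd : c ∣ 12 := by
    have h1 : c ∣ 6 * c - n := Nat.dvd_sub (Dvd.intro_left 6 rfl) hc
    have h2 : 6 * c - n = 12 := by omega
    rwa [h2] at h1
  have hle : c ≤ 12 := Nat.le_of_dvd (by norm_num) hdvd
  omega

/-- (I-B2) the Diophantine analysis: `m i` = orbit sizes (`= n / e_i`). -/
theorem dsi_dioph (n : ℕ) (hn : 2 ≤ n) (r : ℕ) (m : Fin r → ℕ) (hpos : ∀ i, 0 < m i)
    (hm : ∀ i, m i ∣ n) (hm2 : ∀ i, 2 * m i ≤ n)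
    (hsum : r * n = ∑ i, m i + 2 * (n - 1)) :
    (r = 2 ∧ ∀ i, m i = 1) ∨ (r = 3 ∧ ∃ i, m i = 2) ∨ n ≤ 60 := by
  -- `r ≤ 3`
  have h2sum : 2 * ∑ i, m i ≤ r * n := by
    rw [Finset.mul_sum]
    calc ∑ i, 2 * m i ≤ ∑ _i : Fin r, n := Finset.sum_le_sum fun i _ => hm2 i
      _ = r * n := by simp
  have hr : r < 4 := by
    have h1 : r * n < 4 * n := by omega
    exact Nat.lt_of_mul_lt_mul_right h1
  interval_cases r
  · simp at hsum
    omega
  · rw [Fin.sum_univ_one] at hsum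
    have := hpos 0
    omega
  · left
    refine ⟨rfl, ?_⟩
    rw [Fin.sum_univ_two] at hsum
    have h0 := hpos 0
    have h1 := hpos 1
    rw [Fin.forall_fin_two]
    omega
  · rw [Fin.sum_univ_three] at hsum
    by_cases hex : ∃ i, m i = 2
    · right; left; exact ⟨rfl, hex⟩
    right; right
    push Not at hex
    have t0 := dsidi_tricho (hpos 0) (hm 0) (hm2 0)
    have t1 := dsidi_tricho (hpos 1) (hm 1) (hm2 1)
    have t2 := dsidi_tricho (hpos 2) (hm 2) (hm2 2)
    have e0 := hex 0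
    have e1 := hex 1
    have e2 := hex 2
    have p0 := hpos 0
    have p1 := hpos 1
    have p2 := hpos 2
    have d0 := hm 0
    have d1 := hm 1
    have d2 := hm 2
    generalize m 0 = a at *
    generalize m 1 = b at *
    generalize m 2 = c at *
    rcases t0 with t0 | t0 | t0 <;> rcases t1 with t1 | t1 | t1 <;> rcases t2 with t2 | t2 | t2 <;>
      first
      | omega
      | exact dsidi_aux a b c n t0 t1 d2 (by omega)
      | exact dsidi_aux a c b n t0 t2 d1 (by omega)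
      | exact dsidi_aux b a c n t1 t0 d2 (by omega)
      | exact dsidi_aux b c a n t1 t2 d0 (by omega)
      | exact dsidi_aux c a b n t2 t0 d1 (by omega)
      | exact dsidi_aux c b a n t2 t1 d0 (by omega)

end Fermat.Agent.DS
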