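import Mathlib
import Fermat.Agent.DS.I.Burnside
import Fermat.Agent.DS.I.Dioph

/-!
# Program DS, package (I), row I-B3 : Klein's trichotomy, abstract form (helper27)
-/

set_option autoImplicit false
set_option linter.style.haveILetI false

namespace Fermat.Agent.DS

open MulAction

/-- the "poles": points with a non-trivial stabiliser -/
def dsiPoles (Γ Ω : Type*) [Group Γ] [MulAction Γ Ω] : SubMulAction Γ Ω where
  carrier := {x | ∃ γ : Γ, γ ≠ 1 ∧ γ • x = x}
  smul_mem' := by
    rintro δ x ⟨γ, hγ, hx⟩
    refine ⟨δ * γ * δ⁻¹, ?_, ?_⟩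
    · intro h
      apply hγ
      have h' : δ * γ = δ := by
        have := congrArg (· * δ) h
        simpa using this
      exact mul_eq_left.mp h'
    · simp [mul_smul, hx]

theorem dsi_mem_poles {Γ Ω : Type*} [Group Γ] [MulAction Γ Ω] (x : Ω) :
    x ∈ dsiPoles Γ Ω ↔ ∃ γ : Γ, γ ≠ 1 ∧ γ • x = x := Iff.rfl

theorem dsi_poles_finite {Γ Ω : Type*} [Group Γ] [Finite Γ] [MulAction Γ Ω]
    (h2 : ∀ γ : Γ, γ ≠ 1 → (MulAction.fixedBy Ω γ).ncard = 2) :
    Finite (dsiPoles Γ Ω) := by
  have h : ((dsiPoles Γ Ω : SubMulAction Γ Ω) : Set Ω)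
      ⊆ ⋃ γ ∈ {γ : Γ | γ ≠ 1}, MulAction.fixedBy Ω γ := by
    rintro x ⟨γ, hγ, hx⟩
    simp only [Set.mem_iUnion]
    exact ⟨γ, hγ, hx⟩
  have hfin : (⋃ γ ∈ {γ : Γ | γ ≠ 1}, MulAction.fixedBy Ω γ).Finite := by
    apply Set.Finite.biUnion (Set.toFinite _)
    intro γ hγ
    apply Set.finite_of_ncard_ne_zero
    rw [h2 γ hγ]; norm_num
  exact (hfin.subset h).to_subtype

theorem dsi_poles_fixedBy {Γ Ω : Type*} [Group Γ] [Finite Γ] [MulAction Γ Ω]
    (h2 : ∀ γ : Γ, γ ≠ 1 → (MulAction.fixedBy Ω γ).ncard = 2) (γ : Γ) (hγ : γ ≠ 1) :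
    (MulAction.fixedBy (dsiPoles Γ Ω) γ).ncard = 2 := by
  rw [← h2 γ hγ]
  have : MulAction.fixedBy Ω γ = Subtype.val '' (MulAction.fixedBy (dsiPoles Γ Ω) γ) := by
    ext x
    constructor
    · intro hx
      refine ⟨⟨x, γ, hγ, hx⟩, ?_, rfl⟩
      simp only [MulAction.mem_fixedBy]
      apply Subtype.ext
      simpa using hx
    · rintro ⟨y, hy, rfl⟩
      simp only [MulAction.mem_fixedBy] at hy ⊢
      have := congrArg Subtype.val hy
      simpa using this
  rw [this, Set.ncard_image_of_injective _ Subtype.val_injective]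

theorem dsi_klein {Γ Ω : Type*} [Group Γ] [Finite Γ] [MulAction Γ Ω]
    (h2 : ∀ γ : Γ, γ ≠ 1 → (MulAction.fixedBy Ω γ).ncard = 2) (hΩ : ∃ x y : Ω, x ≠ y) :
    (∃ (S : Subgroup Γ) (x y : Ω), x ≠ y ∧ Nat.card Γ ≤ 2 * Nat.card S ∧
        ∀ s ∈ S, s • x = x ∧ s • y = y) ∨
      Nat.card Γ ≤ 60 := by
  classical
  by_cases hn : Nat.card Γ ≤ 1
  · -- trivial group
    obtain ⟨x, y, hxy⟩ := hΩ
    left
    refine ⟨⊤, x, y, hxy, ?_, ?_⟩
    · simp only [Subgroup.card_top]; omega
    · intro s _
      have hs : s = 1 := by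
        have : Subsingleton Γ := by
          rw [← Finite.card_le_one_iff_subsingleton]; exact hn
        exact Subsingleton.elim _ _
      simp [hs]
  push Not at hn
  have hn2 : 2 ≤ Nat.card Γ := hn
  haveI : Finite (dsiPoles Γ Ω) := dsi_poles_finite h2
  set X := dsiPoles Γ Ω with hX
  have hB := dsi_klein_burnside (Γ := Γ) (X := X) (dsi_poles_fixedBy h2)
  haveI : Fintype Γ := Fintype.ofFinite Γ
  haveI : Fintype X := Fintype.ofFinite X
  have hC := MulAction.card_eq_sum_card_group_div_card_stabilizer Γ X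
  -- orbit sizes
  set Q := MulAction.orbitRel.Quotient Γ X with hQ
  set r := Fintype.card Q with hr
  let e : Fin r ≃ Q := (Fintype.equivFin Q).symm
  let m : Fin r → ℕ := fun i => Fintype.card Γ / Fintype.card (stabilizer Γ (e i).out)
  have hstab : ∀ x : X, 2 ≤ Nat.card (stabilizer Γ x) := by
    intro x
    obtain ⟨γ, hγ, hx⟩ := x.2
    have hmem : γ ∈ stabilizer Γ x := by
      rw [MulAction.mem_stabilizer_iff]
      apply Subtype.ext
      simpa using hx
    by_contra hlt
    push Not at hlt
    have hle : Nat.card (stabilizer Γ x) ≤ 1 := by omega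
    have : Subsingleton (stabilizer Γ x) := by
      rw [← Finite.card_le_one_iff_subsingleton]; exact hle
    have h1 : (⟨γ, hmem⟩ : stabilizer Γ x) = 1 := Subsingleton.elim _ _
    exact hγ (by simpa using congrArg Subtype.val h1)
  have hcm : ∀ x : X, Nat.card (stabilizer Γ x) * (Fintype.card Γ / Fintype.card (stabilizer Γ x))
      = Nat.card Γ := by
    intro x
    have hdvd : Fintype.card (stabilizer Γ x) ∣ Fintype.card Γ := by
      have := Subgroup.card_subgroup_dvd_card (stabilizer Γ x)
      simpa [Nat.card_eq_fintype_card] using this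
    rw [Nat.card_eq_fintype_card, Nat.card_eq_fintype_card]
    exact Nat.mul_div_cancel' hdvd
  have hnpos : 0 < Nat.card Γ := by omega
  have hpos : ∀ i, 0 < m i := by
    intro i
    have := hcm (e i).out
    by_contra h0
    push Not at h0
    have h0' : m i = 0 := by omega
    simp only [m] at h0'
    rw [h0'] at this
    omega
  have hm : ∀ i, m i ∣ Nat.card Γ := by
    intro i
    exact ⟨Nat.card (stabilizer Γ (e i).out), by rw [← hcm (e i).out]; ring⟩
  have hm2 : ∀ i, 2 * m i ≤ Nat.card Γ := by
    intro i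
    rw [← hcm (e i).out]
    exact Nat.mul_le_mul_right _ (hstab _)
  have hsum : r * Nat.card Γ = ∑ i, m i + 2 * (Nat.card Γ - 1) := by
    have h1 : ∑ i, m i = Fintype.card X := by
      rw [hC]
      exact Fintype.sum_equiv e m
        (fun ω : Q => Fintype.card Γ / Fintype.card (stabilizer Γ ω.out)) (fun i => rfl)
    rw [h1, ← Nat.card_eq_fintype_card (α := X), ← hB, Nat.card_eq_fintype_card (α := Q)]
  rcases dsi_dioph (Nat.card Γ) hn2 r m hpos hm hm2 hsum with ⟨hr2, hall⟩ | ⟨hr3, i, hi⟩ | h60
  · -- two fixed points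
    left
    have hfix : ∀ i, ∀ γ : Γ, γ • ((e i).out : X) = (e i).out := by
      intro i γ
      have h1 := hcm (e i).out
      have h2' : Fintype.card Γ / Fintype.card (stabilizer Γ (e i).out) = 1 := hall i
      rw [h2', mul_one] at h1
      have htop : stabilizer Γ (e i).out = ⊤ := (Subgroup.card_eq_iff_eq_top _).mp h1
      have : γ ∈ stabilizer Γ (e i).out := by rw [htop]; trivial
      exact this
    have i0 : Fin r := ⟨0, by omega⟩
    have i1 : Fin r := ⟨1, by omega⟩
    refine ⟨⊤, (((e ⟨0, by omega⟩).out : X) : Ω), (((e ⟨1, by omega⟩).out : X) : Ω), ?_, ?_, ?_⟩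
    · intro h
      have h' : (e ⟨0, by omega⟩).out = (e ⟨1, by omega⟩).out := Subtype.ext h
      have h'' := congrArg (Quotient.mk'' (s₁ := MulAction.orbitRel Γ X)) h'
      rw [Quotient.out_eq', Quotient.out_eq'] at h''
      have := e.injective h''
      simp at this
    · simp only [Subgroup.card_top]; omega
    · intro s _
      constructor
      · have := hfix ⟨0, by omega⟩ s
        simpa using congrArg Subtype.val this
      · have := hfix ⟨1, by omega⟩ s
        simpa using congrArg Subtype.val this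
  · -- an orbit of size two
    left
    set x : X := (e i).out with hx
    set S := stabilizer Γ x with hS
    have hcS : Nat.card S * 2 = Nat.card Γ := by
      have := hcm x
      have hi' : Fintype.card Γ / Fintype.card (stabilizer Γ x) = 2 := hi
      rw [hi'] at this
      exact this
    have hidx : S.index = 2 := by
      have := S.card_mul_index
      have hSpos : 0 < Nat.card S := Nat.card_pos
      nlinarith
    haveI : S.Normal := Subgroup.normal_of_index_eq_two hidx
    have hne : S ≠ ⊤ := by
      intro h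
      rw [h, Subgroup.index_top] at hidx
      omega
    obtain ⟨δ, hδ⟩ : ∃ δ : Γ, δ ∉ S := by
      by_contra hall
      push Not at hall
      exact hne (by ext g; simp [hall g])
    refine ⟨S, (x : Ω), ((δ • x : X) : Ω), ?_, ?_, ?_⟩
    · intro h
      apply hδ
      rw [hS, MulAction.mem_stabilizer_iff]
      exact (Subtype.ext h).symm
    · omega
    · intro s hs
      constructor
      · have : s • x = x := hs
        simpa using congrArg Subtype.val this
      · have h1 : δ⁻¹ * s * δ ∈ S := by
          have := ‹S.Normal›.conj_mem s hs δ⁻¹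
          simpa using this
        have h2 : (δ⁻¹ * s * δ) • x = x := h1
        have h3 : s • (δ • x) = δ • x := by
          have := congrArg (fun y => δ • y) h2
          simpa [mul_smul] using this
        simpa using congrArg Subtype.val h3
  · right; exact h60

end Fermat.Agent.DS
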