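import Mathlib
import Fermat.Agent.DS.I.Defs
import Fermat.Agent.DS.I.LinAlg
import Fermat.Agent.DS.I.Fixed
import Fermat.Agent.DS.I.Klein

/-!
# Program DS, package (I), row I-B6 : `dsi_prime_to_l` (helper27)
-/

set_option autoImplicit false

namespace Fermat.Agent.DS

open Matrix
open scoped LinearAlgebra.Projectivization

section

variable (l : ℕ) [Fact l.Prime]

/-- base change `GL₂(𝔽_ℓ) → GL₂(K)`, `K = 𝔽̄_ℓ` -/
noncomputable def dsiPhi : GL (Fin 2) (ZMod l) →* GL (Fin 2) (AlgebraicClosure (ZMod l)) :=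
  Matrix.GeneralLinearGroup.map (algebraMap (ZMod l) (AlgebraicClosure (ZMod l)))

theorem dsiPhi_val (g : GL (Fin 2) (ZMod l)) :
    ((dsiPhi l g : GL (Fin 2) (AlgebraicClosure (ZMod l))) :
      Matrix (Fin 2) (Fin 2) (AlgebraicClosure (ZMod l))) = dsiMat (AlgebraicClosure (ZMod l)) g :=
  rfl

/-- the permutation representation of `G` on `ℙ¹(K)` -/
noncomputable def dsiPsi (G : Subgroup (GL (Fin 2) (ZMod l))) :
    G →* Equiv.Perm (ℙ (AlgebraicClosure (ZMod l)) (Fin 2 → AlgebraicClosure (ZMod l))) :=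
  (MulAction.toPermHom (GL (Fin 2) (AlgebraicClosure (ZMod l)))
    (ℙ (AlgebraicClosure (ZMod l)) (Fin 2 → AlgebraicClosure (ZMod l)))).comp
      ((dsiPhi l).comp G.subtype)

theorem dsiPsi_apply (G : Subgroup (GL (Fin 2) (ZMod l))) (g : G)
    (x : ℙ (AlgebraicClosure (ZMod l)) (Fin 2 → AlgebraicClosure (ZMod l))) :
    dsiPsi l G g x = dsiPhi l (g : GL (Fin 2) (ZMod l)) • x := rfl

end

end Fermat.Agent.DS

namespace Fermat.Agent.DS

open Matrix
open scoped LinearAlgebra.Projectivization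

section

variable (l : ℕ) [Fact l.Prime]

local notation "𝕂" => AlgebraicClosure (ZMod l)

/-- a scalar matrix acts trivially on `ℙ¹` -/
theorem dsi_scalar_smul {K : Type*} [Field K] (g : GL (Fin 2) K) (a : K)
    (ha : (g : Matrix (Fin 2) (Fin 2) K) = Matrix.scalar (Fin 2) a) (x : ℙ K (Fin 2 → K)) :
    g • x = x := by
  induction x with
  | h u hu =>
    rw [Projectivization.smul_mk, Projectivization.mk_eq_mk_iff' K _ _ _ hu]
    refine ⟨a, ?_⟩
    rw [dsi_gl_smul_def, ha]
    ext i
    simp [Matrix.scalar_apply, Matrix.mulVec, dotProduct, Fin.sum_univ_two, Matrix.diagonal_apply]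

/-- an element acting trivially on `ℙ¹` is scalar -/
theorem dsi_scalar_of_smul {K : Type*} [Field K] (g : GL (Fin 2) K)
    (h : ∀ x : ℙ K (Fin 2 → K), g • x = x) :
    ∃ a : K, (g : Matrix (Fin 2) (Fin 2) K) = Matrix.scalar (Fin 2) a := by
  set A : Matrix (Fin 2) (Fin 2) K := (g : Matrix (Fin 2) (Fin 2) K) with hA
  have key : ∀ u : Fin 2 → K, u ≠ 0 → ∃ c : K, A.mulVec u = c • u := by
    intro u hu
    have := h (Projectivization.mk K u hu)
    rw [Projectivization.smul_mk, Projectivization.mk_eq_mk_iff' K _ _ _ hu] at this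
    obtain ⟨c, hc⟩ := this
    exact ⟨c, by rw [hA, ← dsi_gl_smul_def]; exact hc.symm⟩
  obtain ⟨a, ha⟩ := key ![1, 0] (by intro h; simpa using congrFun h 0)
  obtain ⟨d, hd⟩ := key ![0, 1] (by intro h; simpa using congrFun h 1)
  obtain ⟨c, hc⟩ := key ![1, 1] (by intro h; simpa using congrFun h 0)
  have a00 : A 0 0 = a := by simpa [Matrix.mulVec, dotProduct, Fin.sum_univ_two] using congrFun ha 0
  have a10 : A 1 0 = 0 := by simpa [Matrix.mulVec, dotProduct, Fin.sum_univ_two] using congrFun ha 1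
  have a01 : A 0 1 = 0 := by simpa [Matrix.mulVec, dotProduct, Fin.sum_univ_two] using congrFun hd 0
  have a11 : A 1 1 = d := by simpa [Matrix.mulVec, dotProduct, Fin.sum_univ_two] using congrFun hd 1
  have c0 : A 0 0 + A 0 1 = c := by
    simpa [Matrix.mulVec, dotProduct, Fin.sum_univ_two] using congrFun hc 0
  have c1 : A 1 0 + A 1 1 = c := by
    simpa [Matrix.mulVec, dotProduct, Fin.sum_univ_two] using congrFun hc 1
  refine ⟨a, ?_⟩
  have had : a = d := by
    rw [a00, a01, add_zero] at c0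
    rw [a10, a11, zero_add] at c1
    rw [c0, c1]
  ext i j
  fin_cases i <;> fin_cases j <;>
    simp [Matrix.scalar_apply, Matrix.diagonal_apply, a00, a01, a10, a11, had]

/-- the kernel of `ψ` consists of scalar matrices -/
theorem dsi_ker_psi_le (G : Subgroup (GL (Fin 2) (ZMod l))) (g : G) (hg : dsiPsi l G g = 1) :
    (g : GL (Fin 2) (ZMod l)) ∈ dsiScalars G := by
  refine Subgroup.mem_inf.mpr ⟨g.2, ?_⟩
  rw [Matrix.GeneralLinearGroup.mem_center_iff_val_mem_range_scalar]
  obtain ⟨a, ha⟩ := dsi_scalar_of_smul (dsiPhi l (g : GL (Fin 2) (ZMod l))) (by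
    intro x
    rw [← dsiPsi_apply, hg]; rfl)
  have hinj : Function.Injective (algebraMap (ZMod l) 𝕂) := (algebraMap (ZMod l) 𝕂).injective
  have e : ∀ i j, algebraMap (ZMod l) 𝕂 ((g : GL (Fin 2) (ZMod l)) i j)
      = (Matrix.scalar (Fin 2) a : Matrix (Fin 2) (Fin 2) 𝕂) i j := by
    intro i j
    rw [← ha]; rfl
  refine ⟨(g : GL (Fin 2) (ZMod l)) 0 0, ?_⟩
  ext i j
  apply hinj
  have e00 := e 0 0
  have e01 := e 0 1
  have e10 := e 1 0
  have e11 := e 1 1
  simp only [Matrix.scalar_apply, Matrix.diagonal_apply_eq, ne_eq, zero_ne_one, not_false_eq_true,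
    Matrix.diagonal_apply_ne, one_ne_zero] at e00 e01 e10 e11
  fin_cases i <;> fin_cases j <;>
    simp [Matrix.scalar_apply, Matrix.diagonal_apply, e00, e01, e10, e11]

end

end Fermat.Agent.DS

namespace Fermat.Agent.DS

open Matrix
open scoped LinearAlgebra.Projectivization

theorem dsi_two_points (K : Type*) [Field K] : ∃ x y : ℙ K (Fin 2 → K), x ≠ y := by
  have h1 : (![1, 0] : Fin 2 → K) ≠ 0 := by intro h; simpa using congrFun h 0
  have h2 : (![0, 1] : Fin 2 → K) ≠ 0 := by intro h; simpa using congrFun h 1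
  refine ⟨Projectivization.mk K _ h1, Projectivization.mk K _ h2, ?_⟩
  intro h
  rw [Projectivization.mk_eq_mk_iff' K _ _ h1 h2] at h
  obtain ⟨a, ha⟩ := h
  simpa using congrFun ha 0

/-- (I-B6) the dichotomy for `ℓ ∤ |G|` -/
theorem dsi_prime_to_l (l : ℕ) [Fact l.Prime] (G : Subgroup (GL (Fin 2) (ZMod l)))
    (hl : ¬ l ∣ Nat.card G) :
    (∃ G' : Subgroup (GL (Fin 2) (ZMod l)), G' ≤ G ∧ Nat.card G ≤ 2 * Nat.card G' ∧
        DsiSplitOver (AlgebraicClosure (ZMod l)) G') ∨
      Nat.card G ≤ 60 * Nat.card (dsiScalars G) := by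
  classical
  set ψ := dsiPsi l G with hψ
  have hcard : Nat.card G = Nat.card ψ.ker * Nat.card ψ.range := by
    rw [← Subgroup.index_ker ψ, Subgroup.card_mul_index]
  have hker : Nat.card ψ.ker ≤ Nat.card (dsiScalars G) := by
    refine Nat.card_le_card_of_injective
      (fun g : ψ.ker => (⟨((g : G) : GL (Fin 2) (ZMod l)),
        dsi_ker_psi_le l G g (MonoidHom.mem_ker.mp g.2)⟩ : dsiScalars G)) ?_
    intro g₁ g₂ h
    apply Subtype.ext
    apply Subtype.ext
    have h' := congrArg Subtype.val h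
    exact h'
  have hcharp : CharP (AlgebraicClosure (ZMod l)) l := inferInstance
  have h2 : ∀ γ : ψ.range, γ ≠ 1 → (MulAction.fixedBy
      (ℙ (AlgebraicClosure (ZMod l)) (Fin 2 → AlgebraicClosure (ZMod l))) γ).ncard = 2 := by
    rintro ⟨γ, g, rfl⟩ hne
    have hns : ¬ ∃ a, ((dsiPhi l (g : GL (Fin 2) (ZMod l)) : GL (Fin 2) (AlgebraicClosure (ZMod l))) :
        Matrix (Fin 2) (Fin 2) (AlgebraicClosure (ZMod l))) = Matrix.scalar (Fin 2) a := by
      rintro ⟨a, ha⟩
      apply hne
      apply Subtype.ext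
      apply Equiv.ext
      intro x
      exact dsi_scalar_smul _ a ha x
    have hpow : (dsiPhi l (g : GL (Fin 2) (ZMod l))) ^ (Nat.card G) = 1 := by
      rw [← map_pow]
      have : ((g : GL (Fin 2) (ZMod l))) ^ (Nat.card G) = 1 := by
        have h := pow_card_eq_one' (G := G) (x := g)
        exact_mod_cast congrArg Subtype.val h
      rw [this, map_one]
    have hn : ((Nat.card G : ℕ) : AlgebraicClosure (ZMod l)) ≠ 0 := by
      rw [Ne, CharP.cast_eq_zero_iff (AlgebraicClosure (ZMod l)) l]; exact hl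
    have := dsi_fixedBy_ncard (dsiPhi l (g : GL (Fin 2) (ZMod l))) (Nat.card G) hn hpow hns
    refine Eq.trans ?_ this
    congr 1
  rcases dsi_klein h2 (dsi_two_points _) with ⟨S, x, y, hxy, hS, hfix⟩ | h60
  · left
    set G₀ : Subgroup G := S.comap ψ.rangeRestrict with hG₀
    refine ⟨G₀.map G.subtype, ?_, ?_, ?_⟩
    · rintro _ ⟨g, _, rfl⟩
      exact g.2
    · have hidx : G₀.index = S.index :=
        Subgroup.index_comap_of_surjective S ψ.rangeRestrict_surjective
      have h1 : Nat.card (G₀.map G.subtype) = Nat.card G₀ :=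
        Nat.card_congr (G₀.equivMapOfInjective G.subtype G.subtype_injective).symm.toEquiv
      rw [h1]
      have h3 := G₀.card_mul_index
      have h4 := S.card_mul_index
      have hSpos : 0 < Nat.card S := Nat.card_pos
      have hS2 : S.index ≤ 2 := by
        by_contra hgt
        push Not at hgt
        have : Nat.card S * 3 ≤ Nat.card S * S.index := Nat.mul_le_mul_left _ hgt
        omega
      rw [← h3, hidx]
      calc Nat.card G₀ * S.index ≤ Nat.card G₀ * 2 := Nat.mul_le_mul_left _ hS2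
        _ = 2 * Nat.card G₀ := mul_comm _ _
    · -- split over K
      induction x with
      | h v hv =>
      induction y with
      | h w hw =>
      refine ⟨v, w, hv, ?_, ?_, ?_⟩
      · intro c hc
        apply hxy
        rw [Projectivization.mk_eq_mk_iff' _ _ _ hv hw]
        have hc0 : c ≠ 0 := by
          intro h0; apply hw; rw [hc, h0, zero_smul]
        exact ⟨c⁻¹, by rw [hc, smul_smul, inv_mul_cancel₀ hc0, one_smul]⟩
      · rintro _ ⟨g, hg, rfl⟩
        have hgS : ψ.rangeRestrict g ∈ S := hg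
        have := (hfix _ hgS).1
        have h' : dsiPhi l (g : GL (Fin 2) (ZMod l)) •
            Projectivization.mk (AlgebraicClosure (ZMod l)) v hv
            = Projectivization.mk (AlgebraicClosure (ZMod l)) v hv := this
        rw [Projectivization.smul_mk, Projectivization.mk_eq_mk_iff' _ _ _ _ hv] at h'
        obtain ⟨a, ha⟩ := h'
        exact ⟨a, ha.symm⟩
      · rintro _ ⟨g, hg, rfl⟩
        have hgS : ψ.rangeRestrict g ∈ S := hg
        have := (hfix _ hgS).2
        have h' : dsiPhi l (g : GL (Fin 2) (ZMod l)) •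
            Projectivization.mk (AlgebraicClosure (ZMod l)) w hw
            = Projectivization.mk (AlgebraicClosure (ZMod l)) w hw := this
        rw [Projectivization.smul_mk, Projectivization.mk_eq_mk_iff' _ _ _ _ hw] at h'
        obtain ⟨a, ha⟩ := h'
        exact ⟨a, ha.symm⟩
  · right
    rw [hcard]
    calc Nat.card ψ.ker * Nat.card ψ.range ≤ Nat.card (dsiScalars G) * 60 :=
          Nat.mul_le_mul hker h60
      _ = 60 * Nat.card (dsiScalars G) := mul_comm _ _

end Fermat.Agent.DS
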