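import Mathlib
import Fermat.Agent.DS.I.Defs
import Fermat.Agent.DS.I.ContainsSL2
import Fermat.Agent.DS.I.PrimeToL
import Fermat.Agent.DS.I.FibreGL2
import Fermat.Agent.DS.I.FibreSplit
import Fermat.Agent.DS.I.FibreProj

/-!
# Program DS, package (I) : the trichotomy and DS Prop. 7.2 (helper27)
-/

set_option autoImplicit false

namespace Fermat.Agent.DS

open Matrix

/-- (I-T) THE TRICHOTOMY. -/
theorem dsi_trichotomy (l : ℕ) [Fact l.Prime] (G : Subgroup (GL (Fin 2) (ZMod l)))
    (hG : DsiSemisimple G) :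
    (∀ g : GL (Fin 2) (ZMod l), (g : Matrix (Fin 2) (Fin 2) (ZMod l)).det = 1 → g ∈ G) ∨
    (∃ G' : Subgroup (GL (Fin 2) (ZMod l)), G' ≤ G ∧ Nat.card G ≤ 2 * Nat.card G' ∧
        DsiSplitOver (AlgebraicClosure (ZMod l)) G') ∨
      Nat.card G ≤ 60 * Nat.card (dsiScalars G) := by
  by_cases hl : l ∣ Nat.card G
  · exact Or.inl (dsi_contains_sl2 l G hG hl)
  · exact Or.inr (dsi_prime_to_l l G hl)

theorem dsi_card_GL_le (l : ℕ) [Fact l.Prime] : Nat.card (GL (Fin 2) (ZMod l)) ≤ l ^ 4 := by
  rw [Matrix.card_GL_field, Fin.prod_univ_two, ZMod.card]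
  simp only [Fin.val_zero, pow_zero, Fin.val_one, pow_one]
  calc (l ^ 2 - 1) * (l ^ 2 - l) ≤ l ^ 2 * l ^ 2 := Nat.mul_le_mul (Nat.sub_le _ _) (Nat.sub_le _ _)
    _ = l ^ 4 := by ring

/-- `|H| ≤ B · M` if every `(tr, det)`-fibre of `H` has at most `B` elements -/
theorem dsi_card_le_of_fibres {F : Type*} [Field F] [DecidableEq F] (H : Finset (GL (Fin 2) F))
    (B M : ℕ)
    (hB : ∀ t d : F, (H.filter (fun h : GL (Fin 2) F =>
      (h : Matrix (Fin 2) (Fin 2) F).trace = t ∧ (h : Matrix (Fin 2) (Fin 2) F).det = d)).card ≤ B)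
    (hM : (H.image (fun h : GL (Fin 2) F => ((h : Matrix (Fin 2) (Fin 2) F).trace,
      (h : Matrix (Fin 2) (Fin 2) F).det))).card ≤ M) : H.card ≤ B * M := by
  classical
  calc H.card ≤ B * (H.image (fun h : GL (Fin 2) F => ((h : Matrix (Fin 2) (Fin 2) F).trace,
      (h : Matrix (Fin 2) (Fin 2) F).det))).card := by
        apply Finset.card_le_mul_card_image
        rintro ⟨t, d⟩ _
        have := hB t d
        refine le_trans (le_of_eq ?_) this
        congr 1
        apply Finset.filter_congr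
        intro x _
        simp [Prod.mk.injEq]
    _ ≤ B * M := Nat.mul_le_mul_left _ hM

/-- **DS Prop. 7.2.** -/
theorem dsi_prop72 (η : ℝ) (hη : η < 1 / 2) (M : ℕ) :
    ∃ A : ℕ, ∀ (l : ℕ) [Fact l.Prime] (G : Subgroup (GL (Fin 2) (ZMod l))),
      DsiSemisimple G → DsiHasC G η M → Nat.card G ≤ A := by
  classical
  refine ⟨max ((4 * M + 2) ^ 4) (max ⌈(4 * M : ℝ) / (1 - 2 * η)⌉₊ (240 * M)), ?_⟩
  intro l _ G hG ⟨H, hHG, hHcard, hHimg⟩
  have hl2 : 2 ≤ l := (Fact.out : l.Prime).two_le
  set n := Nat.card G with hn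
  have hnpos : 0 < n := Nat.card_pos
  -- `|H| ≤ |G|`
  have hnG : n = (Finset.univ.filter (fun g : GL (Fin 2) (ZMod l) => g ∈ G)).card := by
    rw [hn, Nat.card_eq_fintype_card, Fintype.card_subtype]
  have hHn : H.card ≤ n := by
    rw [hnG]
    apply Finset.card_le_card
    intro x hx
    simp only [Finset.mem_filter, Finset.mem_univ, true_and]
    exact hHG x hx
  have hnR : (0 : ℝ) < n := by exact_mod_cast hnpos
  have hη0 : 0 ≤ η := by
    by_contra hneg
    push Not at hneg
    have : (n : ℝ) < (1 - η) * n := by nlinarith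
    have h2 : (H.card : ℝ) ≤ n := by exact_mod_cast hHn
    linarith
  -- `n < 2 |H|`
  have hn2H : (n : ℝ) < 2 * H.card := by nlinarith
  rcases dsi_trichotomy l G hG with hsl | ⟨G', hG'G, hidx, hsplit⟩ | h60
  · -- (a) `SL₂ ⊆ G`
    apply le_max_of_le_left
    have h1 := dsi_card_ge_of_sl2 l G hsl
    have h2 : H.card ≤ (2 * l ^ 2) * M := by
      apply dsi_card_le_of_fibres H _ M _ hHimg
      intro t d
      have := dsi_fibre_gl2 H t d
      rwa [ZMod.card] at this
    have h3 : n < 2 * ((2 * l ^ 2) * M) := by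
      have : (n : ℝ) < 2 * ((2 * l ^ 2) * M : ℕ) := by
        have h2' : (H.card : ℝ) ≤ ((2 * l ^ 2) * M : ℕ) := by exact_mod_cast h2
        linarith
      exact_mod_cast this
    have hl4 : l ≤ 4 * M := by
      by_contra hgt
      push Not at hgt
      have hk : l ^ 2 - 1 + 1 = l ^ 2 := Nat.sub_add_cancel (Nat.one_le_pow _ _ (by omega))
      have h5 : l * (l ^ 2 - 1) < 2 * ((2 * l ^ 2) * M) := lt_of_le_of_lt h1 h3
      set k := l ^ 2 - 1 with hkdef
      have h6 : l * (k + 1) = l * l ^ 2 := by rw [hk]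
      nlinarith
    calc n ≤ Nat.card (GL (Fin 2) (ZMod l)) := by
          rw [hn]
          exact Nat.card_le_card_of_injective (fun g : G => (g : GL (Fin 2) (ZMod l)))
            Subtype.val_injective
      _ ≤ l ^ 4 := dsi_card_GL_le l
      _ ≤ (4 * M + 2) ^ 4 := Nat.pow_le_pow_left (by omega) 4
  · -- (b) an index ≤ 2 subgroup in a "Cartan"
    apply le_max_of_le_right
    apply le_max_of_le_left
    set n' := Nat.card G' with hn'
    have hn'G : n' = (Finset.univ.filter (fun g : GL (Fin 2) (ZMod l) => g ∈ G')).card := by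
      rw [hn', Nat.card_eq_fintype_card, Fintype.card_subtype]
    set H' := H.filter (fun g => g ∈ G') with hH'
    have hH'card : H'.card ≤ 2 * M := by
      apply dsi_card_le_of_fibres H' 2 M
      · intro t d
        exact dsi_fibre_split (AlgebraicClosure (ZMod l)) G' hsplit H'
          (fun h hh => (Finset.mem_filter.mp hh).2) t d
      · refine le_trans (Finset.card_le_card ?_) hHimg
        exact Finset.image_subset_image (Finset.filter_subset _ _)
    -- `|H| - |H'| ≤ n - n'`
    have hdiff : H.card + n' ≤ H'.card + n := by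
      have e1 : H.card = H'.card + (H.filter (fun g => ¬ g ∈ G')).card := by
        rw [hH']
        exact (Finset.card_filter_add_card_filter_not (s := H) (fun g => g ∈ G')).symm
      have e2 : (H.filter (fun g => ¬ g ∈ G')).card + n' ≤ n := by
        rw [hn'G, hnG, ← Finset.card_union_of_disjoint]
        · apply Finset.card_le_card
          intro x hx
          rcases Finset.mem_union.mp hx with h | h
          · simp only [Finset.mem_filter, Finset.mem_univ, true_and] at h ⊢
            exact hHG x h.1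
          · simp only [Finset.mem_filter, Finset.mem_univ, true_and] at h ⊢
            exact hG'G h
        · rw [Finset.disjoint_left]
          intro x hx hx'
          simp only [Finset.mem_filter, Finset.mem_univ, true_and] at hx hx'
          exact hx.2 hx'
      omega
    have hn'pos : 0 < n' := Nat.card_pos
    have h1 : (H.card : ℝ) + n' ≤ H'.card + n := by exact_mod_cast hdiff
    have h2 : (H'.card : ℝ) ≤ 2 * M := by exact_mod_cast hH'card
    have h3 : (n : ℝ) ≤ 2 * n' := by exact_mod_cast hidx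
    have hpos : (0 : ℝ) < 1 - 2 * η := by linarith
    have h4 : (1 - 2 * η) * n' ≤ 2 * M := by nlinarith
    have h5 : (n : ℝ) ≤ (4 * M : ℝ) / (1 - 2 * η) := by
      rw [le_div_iff₀ hpos]
      nlinarith
    have : (n : ℝ) ≤ (⌈(4 * M : ℝ) / (1 - 2 * η)⌉₊ : ℝ) := le_trans h5 (Nat.le_ceil _)
    exact_mod_cast this
  · -- (c) projective image of order ≤ 60
    apply le_max_of_le_right
    apply le_max_of_le_right
    have h2 : H.card ≤ (2 * 60) * M := by
      apply dsi_card_le_of_fibres H _ M _ hHimg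
      intro t d
      exact dsi_fibre_proj G 60 h60 H hHG t d
    have h3 : (n : ℝ) < 2 * ((2 * 60) * M : ℕ) := by
      have h2' : (H.card : ℝ) ≤ ((2 * 60) * M : ℕ) := by exact_mod_cast h2
      linarith
    have h4 : n < 2 * ((2 * 60) * M) := by exact_mod_cast h3
    omega

/-! ## adaptors -/

theorem dsiMat_self {F : Type*} [Field F] (g : GL (Fin 2) F) :
    dsiMat F g = (g : Matrix (Fin 2) (Fin 2) F) := by
  ext i j
  simp [dsiMat]

/-- (I-E1) an irreducible subgroup is semisimple (vacuously). -/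
theorem dsi_semisimple_of_irreducible {F : Type*} [Field F] (G : Subgroup (GL (Fin 2) F))
    (h : ∀ v : Fin 2 → F, v ≠ 0 → ¬ DsiStable F G v) : DsiSemisimple G :=
  fun v hv hst => absurd hst (h v hv)

/-- (I-E2) a diagonal subgroup is semisimple. -/
theorem dsi_semisimple_of_diagonal {F : Type*} [Field F] (G : Subgroup (GL (Fin 2) F))
    (h : ∀ g ∈ G, ∃ a b : F, (g : Matrix (Fin 2) (Fin 2) F) = !![a, 0; 0, b]) :
    DsiSemisimple G := by
  intro v hv hst
  have he1 : DsiStable F G ![1, 0] := by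
    intro g hg
    obtain ⟨a, b, hab⟩ := h g hg
    refine ⟨a, ?_⟩
    rw [dsiMat_self, hab]
    ext i; fin_cases i <;> simp [Matrix.mulVec, dotProduct, Fin.sum_univ_two]
  have he2 : DsiStable F G ![0, 1] := by
    intro g hg
    obtain ⟨a, b, hab⟩ := h g hg
    refine ⟨b, ?_⟩
    rw [dsiMat_self, hab]
    ext i; fin_cases i <;> simp [Matrix.mulVec, dotProduct, Fin.sum_univ_two]
  by_cases h1 : v 1 = 0
  · refine ⟨![0, 1], ?_, he2⟩
    intro c hc
    have := congrFun hc 1
    simp [h1] at this
  · refine ⟨![1, 0], ?_, he1⟩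
    intro c hc
    have h0 := congrFun hc 1
    simp only [Matrix.cons_val_one, Matrix.cons_val_zero, Pi.smul_apply, smul_eq_mul] at h0
    have hc0 : c = 0 := by
      rcases mul_eq_zero.mp h0.symm with h' | h'
      · exact h'
      · exact absurd h' h1
    have h00 := congrFun hc 0
    simp [hc0] at h00

/-- (I-E3) what (J) needs: for `ℓ > A` the order of `G` is prime to `ℓ`. -/
theorem dsi_prime_to_l_of_bound (l : ℕ) [Fact l.Prime] (G : Subgroup (GL (Fin 2) (ZMod l)))
    (A : ℕ) (hA : Nat.card G ≤ A) (hl : A < l) : ¬ l ∣ Nat.card G := by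
  intro h
  have hpos : 0 < Nat.card G := Nat.card_pos
  have := Nat.le_of_dvd hpos h
  omega

end Fermat.Agent.DS
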