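import Mathlib
import Fermat.Agent.DS.I.Main

/-!
# Program DS, package (I) : adaptors to the consumer's shape (helper17's `DsProp72`, `DsSemisimple`)
(helper27)
-/

set_option autoImplicit false

namespace Fermat.Agent.DS

open Matrix

/-- submodule-style semisimplicity (helper17's `DsSemisimple`, unfolded) implies `DsiSemisimple` -/
theorem dsi_semisimple_of_compl {F : Type*} [Field F] (G : Subgroup (GL (Fin 2) F))
    (h : ∀ W : Submodule F (Fin 2 → F),
      (∀ g ∈ G, ∀ w ∈ W, (g : Matrix (Fin 2) (Fin 2) F).mulVec w ∈ W) →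
      ∃ W' : Submodule F (Fin 2 → F),
        (∀ g ∈ G, ∀ w ∈ W', (g : Matrix (Fin 2) (Fin 2) F).mulVec w ∈ W') ∧ IsCompl W W') :
    DsiSemisimple G := by
  intro v hv hst
  have hWst : ∀ g ∈ G, ∀ w ∈ Submodule.span F {v},
      (g : Matrix (Fin 2) (Fin 2) F).mulVec w ∈ Submodule.span F {v} := by
    intro g hg w hw
    obtain ⟨c, rfl⟩ := Submodule.mem_span_singleton.mp hw
    obtain ⟨a, ha⟩ := hst g hg
    rw [dsiMat_self] at ha
    rw [Matrix.mulVec_smul, ha, smul_smul]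
    exact Submodule.mem_span_singleton.mpr ⟨c * a, rfl⟩
  obtain ⟨W', hW'st, hcompl⟩ := h _ hWst
  -- a non-zero vector of `W'`
  obtain ⟨w, hwW', hw0⟩ : ∃ w ∈ W', w ≠ 0 := by
    by_contra hall
    push Not at hall
    have hbot : W' = ⊥ := by
      rw [Submodule.eq_bot_iff]; exact hall
    have htop : Submodule.span F {v} = ⊤ := by
      have := hcompl.sup_eq_top
      rwa [hbot, sup_bot_eq] at this
    -- but `span {v} ≠ ⊤` in dimension 2
    have hmem : ∀ u : Fin 2 → F, ∃ c : F, c • v = u := by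
      intro u
      have : u ∈ Submodule.span F {v} := by rw [htop]; trivial
      exact Submodule.mem_span_singleton.mp this
    obtain ⟨c1, h1⟩ := hmem ![1, 0]
    obtain ⟨c2, h2⟩ := hmem ![0, 1]
    have e1 := congrFun h1 0
    have e2 := congrFun h1 1
    have e3 := congrFun h2 0
    have e4 := congrFun h2 1
    simp only [Pi.smul_apply, smul_eq_mul, Matrix.cons_val_zero, Matrix.cons_val_one] at e1 e2 e3 e4
    have hc1 : c1 ≠ 0 := by rintro rfl; simp at e1
    have hc2 : c2 ≠ 0 := by rintro rfl; simp at e4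
    have hv1 : v 1 = 0 := by
      rcases mul_eq_zero.mp e2 with h' | h'
      · exact absurd h' hc1
      · exact h'
    rw [hv1, mul_zero] at e4
    exact zero_ne_one e4
  have hwv : ∀ c : F, w ≠ c • v := by
    intro c hc
    have h1 : w ∈ Submodule.span F {v} := Submodule.mem_span_singleton.mpr ⟨c, hc.symm⟩
    have h2 : w ∈ Submodule.span F {v} ⊓ W' := ⟨h1, hwW'⟩
    rw [hcompl.inf_eq_bot] at h2
    exact hw0 ((Submodule.mem_bot F).mp h2)
  refine ⟨w, hwv, ?_⟩
  intro g hg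
  rw [dsiMat_self]
  have hgw := hW'st g hg w hwW'
  obtain ⟨x, y, hxy⟩ := dsi_span_of_not_smul v w hv hwv ((g : Matrix (Fin 2) (Fin 2) F).mulVec w)
  refine ⟨y, ?_⟩
  have hxv : x • v ∈ Submodule.span F {v} ⊓ W' := by
    refine ⟨Submodule.mem_span_singleton.mpr ⟨x, rfl⟩, ?_⟩
    have : x • v = (g : Matrix (Fin 2) (Fin 2) F).mulVec w - y • w := by rw [hxy]; abel
    rw [this]
    exact W'.sub_mem hgw (W'.smul_mem y hwW')
  rw [hcompl.inf_eq_bot, Submodule.mem_bot] at hxv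
  rw [hxy, hxv, zero_add]

/-- **DS Prop. 7.2** in the consumer's shape (`Set`, `ncard`, `charpoly`): unfolding
`DsSemisimple` this is literally helper17's `DsProp72`. -/
theorem dsi_prop72_set (η : ℝ) (M : ℕ) (_hη0 : 0 ≤ η) (hη : η < 1 / 2) :
    ∃ B : ℕ, ∀ (ℓ : ℕ) [Fact ℓ.Prime] (G : Subgroup (GL (Fin 2) (ZMod ℓ))),
      (∀ W : Submodule (ZMod ℓ) (Fin 2 → ZMod ℓ),
        (∀ g ∈ G, ∀ w ∈ W, (g : Matrix (Fin 2) (Fin 2) (ZMod ℓ)).mulVec w ∈ W) →
        ∃ W' : Submodule (ZMod ℓ) (Fin 2 → ZMod ℓ),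
          (∀ g ∈ G, ∀ w ∈ W', (g : Matrix (Fin 2) (Fin 2) (ZMod ℓ)).mulVec w ∈ W') ∧
            IsCompl W W') →
      ∀ H : Set (GL (Fin 2) (ZMod ℓ)), H ⊆ (G : Set (GL (Fin 2) (ZMod ℓ))) →
        (1 - η) * (Nat.card G : ℝ) ≤ (H.ncard : ℝ) →
        ((fun g : GL (Fin 2) (ZMod ℓ) =>
          (g : Matrix (Fin 2) (Fin 2) (ZMod ℓ)).charpoly) '' H).ncard ≤ M →
        Nat.card G ≤ B := by
  classical
  obtain ⟨A, hA⟩ := dsi_prop72 η hη M
  refine ⟨A, ?_⟩
  intro ℓ _ G hss H hHG hcard hM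
  apply hA ℓ G (dsi_semisimple_of_compl G hss)
  have hHfin : H.Finite := Set.toFinite H
  refine ⟨hHfin.toFinset, ?_, ?_, ?_⟩
  · intro h hh
    exact hHG (hHfin.mem_toFinset.mp hh)
  · rw [← Set.ncard_eq_toFinset_card H hHfin]
    exact hcard
  · -- `(tr, det)` is a function of the characteristic polynomial
    set cp : GL (Fin 2) (ZMod ℓ) → Polynomial (ZMod ℓ) :=
      fun g => (g : Matrix (Fin 2) (Fin 2) (ZMod ℓ)).charpoly with hcp
    set φ : Polynomial (ZMod ℓ) → ZMod ℓ × ZMod ℓ := fun P => (-P.coeff 1, P.coeff 0) with hφ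
    have hfun : (fun h : GL (Fin 2) (ZMod ℓ) => ((h : Matrix (Fin 2) (Fin 2) (ZMod ℓ)).trace,
        (h : Matrix (Fin 2) (Fin 2) (ZMod ℓ)).det)) = φ ∘ cp := by
      funext g
      simp only [hφ, hcp, Function.comp_apply]
      rw [Matrix.charpoly_fin_two]
      simp [Polynomial.coeff_X, Polynomial.coeff_C, Polynomial.coeff_X_pow]
    rw [hfun, ← Finset.image_image]
    refine le_trans Finset.card_image_le ?_
    have : (hHfin.toFinset.image cp).card = (cp '' H).ncard := by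
      rw [Set.ncard_eq_toFinset_card _ (hHfin.image cp)]
      congr 1
      ext P
      simp only [Finset.mem_image, Set.Finite.mem_toFinset, Set.mem_image]
    rw [this]
    exact hM

end Fermat.Agent.DS
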